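import Mathlib
import Fermat.Agent.IntStr.LinAlg

set_option autoImplicit false

/-!
# Families of complex numbers with finite orbit under the automorphisms of `ℂ`
-/

namespace Fermat.Agent.H23.W1

open Fermat.Agent.IntStr (le_span_rational)

variable {ι : Type*} (c : ι → ℂ)

theorem aut_congr {σ τ : ℂ ≃+* ℂ} (h : ∀ i, σ (c i) = τ (c i)) {x : ℂ}
    (hx : x ∈ Algebra.adjoin ℚ (Set.range c)) : σ x = τ x := by
  induction hx using Algebra.adjoin_induction with
  | mem x hx =>
    obtain ⟨i, rfl⟩ := hx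
    exact h i
  | algebraMap r => simp
  | add x y _ _ hx hy => rw [map_add, map_add, hx, hy]
  | mul x y _ _ hx hy => rw [map_mul, map_mul, hx, hy]

/-- the relations between the conjugates -/
def relS {m : ℕ} (x : Fin m → ℂ) : Submodule ℂ (ℕ → ℂ) where
  carrier := {v | (∀ j, m ≤ j → v j = 0) ∧ ∀ σ : ℂ ≃+* ℂ, ∑ j : Fin m, v j * σ (x j) = 0}
  add_mem' := by
    rintro v w ⟨h1, h2⟩ ⟨h3, h4⟩
    refine ⟨fun j hj => by rw [Pi.add_apply, h1 j hj, h3 j hj, add_zero], fun σ => ?_⟩
    simp only [Pi.add_apply, add_mul, Finset.sum_add_distrib, h2 σ, h4 σ, add_zero]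
  zero_mem' := ⟨fun _ _ => rfl, fun σ => by simp⟩
  smul_mem' := by
    rintro a v ⟨h1, h2⟩
    refine ⟨fun j hj => by rw [Pi.smul_apply, h1 j hj, smul_zero], fun σ => ?_⟩
    simp only [Pi.smul_apply, smul_eq_mul, mul_assoc, ← Finset.mul_sum, h2 σ, mul_zero]

theorem relS_finite {m : ℕ} (x : Fin m → ℂ) : FiniteDimensional ℂ (relS x) := by
  let L : relS x →ₗ[ℂ] (Fin m → ℂ) :=
    { toFun := fun v j => (v : ℕ → ℂ) j
      map_add' := fun v w => rfl
      map_smul' := fun a v => rfl }
  refine FiniteDimensional.of_injective L ?_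
  rw [injective_iff_map_eq_zero]
  rintro ⟨v, hv⟩ h
  apply Subtype.ext
  ext j
  rcases Nat.lt_or_ge j m with hj | hj
  · exact congrFun h ⟨j, hj⟩
  · exact hv.1 j hj

theorem relS_stable {m : ℕ} (x : Fin m → ℂ) (σ : ℂ ≃+* ℂ) {v : ℕ → ℂ} (hv : v ∈ relS x) :
    (fun n => σ (v n)) ∈ relS x := by
  refine ⟨fun j hj => ?_, fun τ => ?_⟩
  · show σ (v j) = 0
    rw [hv.1 j hj, map_zero]
  · have h := congrArg σ (hv.2 (τ.trans σ.symm))
    rw [map_zero, map_sum] at h
    rw [← h]
    refine Finset.sum_congr rfl fun j _ => ?_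
    rw [map_mul]
    simp

/-- linearly independent families in the algebra generated by `c` are bounded by the orbit -/
theorem card_le_of_orbit {O : Set (ι → ℂ)} (hO : O.Finite)
    (h : ∀ σ : ℂ ≃+* ℂ, (fun i => σ (c i)) ∈ O) {m : ℕ} (x : Fin m → ℂ)
    (hx : ∀ j, x j ∈ Algebra.adjoin ℚ (Set.range c)) (hli : LinearIndependent ℚ x) :
    m ≤ hO.toFinset.card := by
  classical
  by_contra hlt
  push Not at hlt
  -- representatives
  have hrep : ∀ o : ι → ℂ, ∃ σ : ℂ ≃+* ℂ, (∃ τ : ℂ ≃+* ℂ, (fun i => τ (c i)) = o) →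
      (fun i => σ (c i)) = o := by
    intro o
    by_cases ho : ∃ τ : ℂ ≃+* ℂ, (fun i => τ (c i)) = o
    · obtain ⟨τ, hτ⟩ := ho
      exact ⟨τ, fun _ => hτ⟩
    · exact ⟨RingEquiv.refl ℂ, fun h => absurd h ho⟩
  choose rep hrep using hrep
  let Λ : (Fin m → ℂ) →ₗ[ℂ] (hO.toFinset → ℂ) :=
    { toFun := fun v o => ∑ j, v j * rep o (x j)
      map_add' := fun v w => by
        ext o
        simp only [Pi.add_apply, add_mul, Finset.sum_add_distrib]
      map_smul' := fun a v => by
        ext o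
        simp only [Pi.smul_apply, smul_eq_mul, mul_assoc, ← Finset.mul_sum, RingHom.id_apply] }
  obtain ⟨w, hw, hw0⟩ : ∃ w : Fin m → ℂ, Λ w = 0 ∧ w ≠ 0 := by
    by_contra hcon
    push Not at hcon
    have hinj : Function.Injective Λ := by
      rw [injective_iff_map_eq_zero]
      intro w hw
      exact hcon w hw
    have := LinearMap.finrank_le_finrank_of_injective hinj
    rw [Module.finrank_fintype_fun_eq_card, Module.finrank_fintype_fun_eq_card, Fintype.card_fin,
      Fintype.card_coe] at this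
    omega
  -- extend by zero
  let v : ℕ → ℂ := fun n => if hn : n < m then w ⟨n, hn⟩ else 0
  have hv : v ∈ relS x := by
    refine ⟨fun j hj => dif_neg (not_lt.mpr hj), fun σ => ?_⟩
    have ho : (fun i => σ (c i)) ∈ hO.toFinset := hO.mem_toFinset.mpr (h σ)
    have h1 := congrFun hw ⟨_, ho⟩
    have h2 : ∀ j, rep (fun i => σ (c i)) (x j) = σ (x j) := fun j =>
      aut_congr c (fun i => congrFun (hrep (fun i => σ (c i)) ⟨σ, rfl⟩) i) (hx j)
    change ∑ j, w j * rep (fun i => σ (c i)) (x j) = 0 at h1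
    rw [← h1]
    refine Finset.sum_congr rfl fun j _ => ?_
    rw [h2 j]
    congr 1
    exact dif_pos j.2
  have hv0 : v ≠ 0 := by
    intro h0
    apply hw0
    ext j
    have := congrFun h0 j
    have h1 : v j = w j := dif_pos j.2
    rw [← h1, this]
    rfl
  have := relS_finite x
  have hspan := le_span_rational (relS x) (fun σ v hv => relS_stable x σ hv)
  have hex : ∃ u : ℕ → ℂ, u ∈ relS x ∧ (∀ n, ∃ r : ℚ, (r : ℂ) = u n) ∧ u ≠ 0 := by
    by_contra hcon
    push Not at hcon
    apply hv0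
    have h1 := hspan hv
    have h2 : Submodule.span ℂ {v | v ∈ relS x ∧ ∀ n, ∃ r : ℚ, (r : ℂ) = v n} ≤ ⊥ := by
      rw [Submodule.span_le]
      rintro u ⟨h3, h4⟩
      exact hcon u h3 h4
    exact (Submodule.mem_bot ℂ).mp (h2 h1)
  obtain ⟨u, hu, hur, hu0⟩ := hex
  choose r hr using hur
  have h1 := hu.2 (RingEquiv.refl ℂ)
  have h2 : ∑ j : Fin m, r j • x j = 0 := by
    rw [← h1]
    refine Finset.sum_congr rfl fun j _ => ?_
    rw [← hr j, Algebra.smul_def]
    rfl
  have h3 := (Fintype.linearIndependent_iff.mp hli) (fun j => r j) h2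
  apply hu0
  ext j
  rcases Nat.lt_or_ge j m with hj | hj
  · rw [← hr j, show r j = 0 from h3 ⟨j, hj⟩]
    simp
  · exact hu.1 j hj

/-- **A family with finite orbit lies in a number field.** -/
theorem exists_field_of_finite_orbit {O : Set (ι → ℂ)} (hO : O.Finite)
    (h : ∀ σ : ℂ ≃+* ℂ, (fun i => σ (c i)) ∈ O) :
    ∃ K : IntermediateField ℚ ℂ, FiniteDimensional ℚ K ∧ ∀ i, c i ∈ K := by
  classical
  set A := Algebra.adjoin ℚ (Set.range c) with hA
  have hfin : FiniteDimensional ℚ A := by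
    by_contra hcon
    have hr : ((hO.toFinset.card + 1 : ℕ) : Cardinal) ≤ Module.rank ℚ A := by
      have : Cardinal.aleph0 ≤ Module.rank ℚ A := by
        by_contra h1
        push Not at h1
        exact hcon (Module.rank_lt_aleph0_iff.mp h1)
      exact (Cardinal.natCast_le_aleph0).trans this
    rw [le_rank_iff_exists_linearIndependent_finset] at hr
    obtain ⟨s, hs, hli⟩ := hr
    let e : Fin (hO.toFinset.card + 1) ≃ s := (Fintype.equivFinOfCardEq (by
      rw [Fintype.card_coe, hs])).symm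
    have h1 := card_le_of_orbit c hO h (fun j => ((e j : A) : ℂ)) (fun j => (e j : A).2) (by
      have h2 := (hli.comp e e.injective).map' A.val.toLinearMap
        (LinearMap.ker_eq_bot.mpr Subtype.val_injective)
      exact h2)
    omega
  have halg : ∀ x ∈ Set.range c, IsAlgebraic ℚ x := by
    intro x hx
    have h1 : IsIntegral ℚ (⟨x, Algebra.subset_adjoin hx⟩ : A) := IsIntegral.of_finite ℚ _
    have h2 := h1.map A.val
    exact h2.isAlgebraic
  refine ⟨IntermediateField.adjoin ℚ (Set.range c), ?_, fun i =>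
    IntermediateField.subset_adjoin _ _ ⟨i, rfl⟩⟩
  have h3 : (IntermediateField.adjoin ℚ (Set.range c)).toSubalgebra = A :=
    IntermediateField.adjoin_toSubalgebra_of_isAlgebraic halg
  have h4 : FiniteDimensional ℚ (IntermediateField.adjoin ℚ (Set.range c)).toSubalgebra := by
    rw [h3]
    exact hfin
  exact h4

end Fermat.Agent.H23.W1
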