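import Fermat.Agent.H23.W1.Integ
import Fermat.Agent.IntStr.AutC

set_option autoImplicit false

/-!
# The arithmetic of a weight one eigenform
-/

noncomputable section

open UpperHalfPlane hiding I
open Filter Function Complex Topology CongruenceSubgroup ModularForm
open scoped MatrixGroups Real ModularForm Manifold Polynomial

namespace Fermat.Agent.H23.W1

open ModularFormClass (qCoeff)

/-- extension of an embedding of a number field to an automorphism of `ℂ` -/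
theorem exists_aut_extend (K : IntermediateField ℚ ℂ) (hK : FiniteDimensional ℚ K)
    (τ : K →+* ℂ) : ∃ σ : ℂ ≃+* ℂ, ∀ x : K, σ x = τ x := by
  let E := algebraicClosure ℚ ℂ
  have hE : IsAlgClosure ℚ E := algebraicClosure.isAlgClosure ℚ ℂ
  have hEc : IsAlgClosed E := hE.isAlgClosed
  have hEa : Algebra.IsAlgebraic ℚ E := hE.isAlgebraic
  have hG : IsGalois ℚ E := inferInstance
  have hKE : K ≤ E := by
    intro x hx
    have h1 : IsIntegral ℚ (⟨x, hx⟩ : K) := IsIntegral.of_finite ℚ _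
    exact mem_algebraicClosure_iff.mpr (h1.map K.val).isAlgebraic
  have hτE : ∀ x : K, τ x ∈ E := by
    intro x
    have h1 : IsIntegral ℚ x := IsIntegral.of_finite ℚ x
    have h2 : IsIntegral ℚ (τ.toRatAlgHom x) := h1.map τ.toRatAlgHom
    exact mem_algebraicClosure_iff.mpr h2.isAlgebraic
  let φ : K →ₐ[ℚ] E := (τ.toRatAlgHom).codRestrict E.toSubalgebra hτE
  let ι : K →ₐ[ℚ] E := IntermediateField.inclusion hKE
  letI : Algebra K E := ι.toRingHom.toAlgebra
  haveI : IsScalarTower ℚ K E := IsScalarTower.of_algebraMap_eq' (by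
    exact ι.comp_algebraMap.symm)
  let ψ : E →ₐ[ℚ] E := AlgHom.liftNormal (K₁ := K) (K₂ := E) φ E
  have hψ : ∀ x : K, ψ (ι x) = φ x := fun x => AlgHom.liftNormal_commutes φ E x
  have hb : Function.Bijective ψ := AlgHom.normal_bijective ℚ E E ψ
  let e : E ≃ₐ[ℚ] E := AlgEquiv.ofBijective ψ hb
  obtain ⟨B, hB⟩ := exists_isTranscendenceBasis E ℂ
  obtain ⟨σ, hσ⟩ := IntStr.exists_ringEquiv_of_transcendenceBasis (R := E) _ hB
    (MvPolynomial.mapEquiv _ e.toRingEquiv)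
  refine ⟨σ, fun x => ?_⟩
  have h1 := hσ (MvPolynomial.C (ι x))
  simp only [MvPolynomial.aeval_C, MvPolynomial.mapEquiv_apply, MvPolynomial.map_C] at h1
  have h2 : (algebraMap E ℂ) (ι x) = (x : ℂ) := rfl
  rw [h2] at h1
  rw [h1]
  have h3 : (e.toRingEquiv : E →+* E) (ι x) = φ x := hψ x
  rw [h3]
  rfl

theorem qCoeff_zero {N : ℕ} [NeZero N] {k : ℤ} (f : CuspForm (Gamma1 N) k) : qCoeff f 0 = 0 := by
  have hQ := (isG_coe f).mem_QR (T_mem_Gamma1' N)
  have h1 : IsZeroAtImInfty (⇑f) := by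
    have := CuspFormClass.zero_at_infty_slash f (1 : SL(2, ℤ))
    simpa using this
  have h2 := (H02.Good.isLau ⟨hQ.2.1, by simpa using hQ.1, hQ.2.2⟩)
  have hg : H02.Good (⇑f) := ⟨hQ.2.1, by simpa using hQ.1, hQ.2.2⟩
  have h3 := Fermat.Agent.H18.tendsto_of_hasSum one_pos hg.hasSum
  exact tendsto_nhds_unique h3 h1

/-- **The arithmetic of a weight one eigenform.** -/
theorem ds1 (N : ℕ) [NeZero N] (ε : DirichletCharacter ℂ N) (f : CuspForm (Gamma1 N) 1)
    (hf₁ : qCoeff f 1 = 1)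
    (hT : ∀ p : ℕ, p.Prime → ¬ p ∣ N → ∀ n : ℕ, qCoeff f (p * n) +
      ε (p : ZMod N) * (if p ∣ n then qCoeff f (n / p) else 0) = qCoeff f p * qCoeff f n) :
    ∃ (M : ℕ) (_ : NeZero M) (_ : N ∣ M) (_ : ∀ q : ℕ, q.Prime → q ∣ M → q ∣ N)
      (f' : CuspForm (Gamma1 M) 1),
      (∀ n, qCoeff f' n = if n.Coprime N then qCoeff f n else 0) ∧
      (∀ γ ∈ Gamma0 M, (f' : ℍ → ℂ) ∣[(1 : ℤ)] γ =
        ε (((γ 1 1 : ℤ)) : ZMod N) • (f' : ℍ → ℂ)) ∧
      (∀ p : ℕ, p.Prime → ¬ p ∣ M → ∀ n : ℕ, qCoeff f' (p * n) +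
        ε (p : ZMod N) * (if p ∣ n then qCoeff f' (n / p) else 0) = qCoeff f' p * qCoeff f' n) ∧
      (∀ n, IsIntegral ℤ (qCoeff f' n)) ∧
      (∀ σ : ℂ ≃+* ℂ, ∃ g : CuspForm (Gamma1 M) 1, ∀ n, qCoeff g n = σ (qCoeff f' n)) ∧
      ∃ K : IntermediateField ℚ ℂ, FiniteDimensional ℚ K ∧ (∀ d, ε d ∈ K) ∧
        ∃ hK : ∀ n, qCoeff f' n ∈ K,
        ∀ τ : K →+* ℂ, ∃ g : CuspForm (Gamma1 M) 1, ∀ n, qCoeff g n = τ ⟨qCoeff f' n, hK n⟩ := by
  obtain ⟨f', hf'⟩ := exists_depletion f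
  have hN3 : 3 ≤ N := by
    by_contra h
    have h0 := eq_zero_of_lt_three (N := N) (by omega) (isG_coe f)
    rw [h0] at hf₁
    simp [qCoeff, qExpansion_zero] at hf₁
  have hM3 : 3 ≤ N ^ 2 := by nlinarith
  have hprime : ∀ q : ℕ, q.Prime → q ∣ N ^ 2 → q ∣ N := fun q hq h => hq.dvd_of_dvd_pow h
  have hrel : ∀ p : ℕ, p.Prime → ¬ p ∣ N → ∀ n : ℕ, qCoeff f' (p * n) +
      ε (p : ZMod N) * (if p ∣ n then qCoeff f' (n / p) else 0) = qCoeff f' p * qCoeff f' n := by
    intro p hp hpN n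
    have hpc : p.Coprime N := (Nat.Prime.coprime_iff_not_dvd hp).mpr hpN
    have h1 := hT p hp hpN n
    rw [hf', hf', hf', hf', if_pos hpc]
    by_cases hn : n.Coprime N
    · have h2 : (p * n).Coprime N := Nat.Coprime.mul_left hpc hn
      rw [if_pos hn, if_pos h2, ← h1]
      by_cases hpn : p ∣ n
      · have h3 : (n / p).Coprime N := Nat.Coprime.coprime_dvd_left (Nat.div_dvd_of_dvd hpn) hn
        rw [if_pos hpn, if_pos hpn, if_pos h3]
      · rw [if_neg hpn, if_neg hpn]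
    · have h2 : ¬ (p * n).Coprime N := fun h => hn (Nat.Coprime.coprime_mul_left h)
      rw [if_neg hn, if_neg h2, zero_add, mul_zero]
      by_cases hpn : p ∣ n
      · have h3 : ¬ (n / p).Coprime N := by
          intro h
          apply hn
          have h4 := Nat.Coprime.mul_left hpc h
          rwa [Nat.mul_div_cancel' hpn] at h4
        rw [if_pos hpn, if_neg h3, mul_zero]
      · rw [if_neg hpn, mul_zero]
  have heig : IsEig N ε (fun n => qCoeff f' n) := by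
    refine ⟨qCoeff_zero f', ?_, fun n hn => ?_, hrel⟩
    · show qCoeff f' 1 = 1
      rw [hf', if_pos (Nat.coprime_one_left N), hf₁]
    · show qCoeff f' n = 0
      rw [hf', if_neg hn]
  obtain ⟨K, hKf, hKc, hKε⟩ := exists_field ε f' heig
  refine ⟨N ^ 2, inferInstance, dvd_pow_self N two_ne_zero, hprime, f', hf', ?_, ?_,
    isIntegral_coeff ε hM3 f' heig, fun σ => exists_conj_cusp σ f', K, hKf, hKε, hKc, fun τ => ?_⟩
  · intro γ hγ
    have hdvd : N ∣ N ^ 2 := dvd_pow_self N two_ne_zero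
    have hu : IsUnit ((γ 1 1 : ℤ) : ZMod (N ^ 2)) := by
      have hd := γ.det_coe
      rw [Matrix.det_fin_two] at hd
      have h4 := congrArg (fun x : ℤ => (x : ZMod (N ^ 2))) hd
      push_cast at h4
      rw [Gamma0_mem.mp hγ, mul_zero, sub_zero] at h4
      exact IsUnit.of_mul_eq_one _ ((mul_comm _ _).trans h4)
    have hT' : ∀ p : ℕ, p.Prime → ¬ p ∣ N ^ 2 → ∀ n : ℕ, qCoeff f' (p * n) +
        (DirichletCharacter.changeLevel hdvd ε) (p : ZMod (N ^ 2)) *
          (if p ∣ n then qCoeff f' (n / p) else 0) = qCoeff f' p * qCoeff f' n := by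
      intro p hp hpN n
      have hpN' : ¬ p ∣ N := fun h => hpN (h.trans hdvd)
      have hup : IsUnit (p : ZMod (N ^ 2)) := by
        rw [ZMod.isUnit_iff_coprime]
        exact (Nat.Prime.coprime_iff_not_dvd hp).mpr hpN
      obtain ⟨u, hu⟩ := hup
      rw [← hrel p hp hpN' n, ← hu, DirichletCharacter.changeLevel_eq_cast_of_dvd ε hdvd u, hu,
        ZMod.cast_natCast hdvd]
    have h1 := nebentypus (DirichletCharacter.changeLevel hdvd ε) (isG_coe f') hT' hγ
    rw [h1]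
    obtain ⟨u, hu⟩ := hu
    rw [← hu, DirichletCharacter.changeLevel_eq_cast_of_dvd ε hdvd u, hu,
      ZMod.cast_intCast hdvd]
  · intro p hp hpM
    exact hrel p hp fun h => hpM (h.trans (dvd_pow_self N two_ne_zero))
  · obtain ⟨σ, hσ⟩ := exists_aut_extend K hKf τ
    obtain ⟨g, hg⟩ := exists_conj_cusp σ f'
    exact ⟨g, fun n => by rw [hg n]; exact hσ ⟨_, hKc n⟩⟩

end Fermat.Agent.H23.W1
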