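import Mathlib
import Fermat.Agent.IntStr.Descent

/-!
# Modular forms for a finite index subgroup of `SL₂(ℤ)`: conjugation of the coefficients
-/

set_option autoImplicit false

namespace Fermat.Agent.H23.W1

open UpperHalfPlane Function ModularForm PowerSeries CongruenceSubgroup Filter
open Fermat.Agent.IntStr
open scoped Manifold Topology MatrixGroups ModularForm Real

noncomputable section

/-- modular forms for `Γ`, unbundled -/
structure IsG (Γ : Subgroup SL(2, ℤ)) (k : ℤ) (f : ℍ → ℂ) : Prop where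
  slash : ∀ γ ∈ Γ, f ∣[k] γ = f
  holo : MDiff f
  bdd : ∀ γ : SL(2, ℤ), IsBoundedAtImInfty (f ∣[k] γ)

variable {Γ : Subgroup SL(2, ℤ)} {k : ℤ} {f : ℍ → ℂ}

theorem IsG.mono {Γ' : Subgroup SL(2, ℤ)} (h : IsG Γ k f) (hΓ : Γ' ≤ Γ) : IsG Γ' k f :=
  ⟨fun γ hγ => h.slash γ (hΓ hγ), h.holo, h.bdd⟩

theorem IsG.smul_eq (h : IsG Γ k f) {γ : SL(2, ℤ)} (hγ : γ ∈ Γ) (z : ℍ) :
    f (γ • z) = denom γ z ^ k * f z :=
  slash_eq_iff.mp (congrFun (h.slash γ hγ) z)

theorem periodic_of_T' {f : ℍ → ℂ} (h : ∀ z : ℍ, f (ModularGroup.T • z) = f z) :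
    Function.Periodic (f ∘ ofComplex) 1 := by
  intro w
  by_cases hw : 0 < w.im
  · have h1 : 0 < (w + 1).im := by simpa using hw
    simp only [comp_apply, ofComplex_apply_of_im_pos h1, ofComplex_apply_of_im_pos hw]
    rw [← h (⟨w, hw⟩ : ℍ), UpperHalfPlane.modular_T_smul]
    congr 1
    ext
    simp [add_comm]
  · have h1 : (w + 1).im ≤ 0 := by simpa using hw
    simp [comp_apply, ofComplex_apply_of_im_nonpos h1, ofComplex_apply_of_im_nonpos (not_lt.mp hw)]

theorem denom_T (z : ℍ) : denom (ModularGroup.T : SL(2, ℤ)) z = 1 := by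
  rw [ModularGroup.denom_apply]
  simp [ModularGroup.T]

theorem IsG.mem_QR (h : IsG Γ k f) (hT : ModularGroup.T ∈ Γ) : f ∈ QR 1 := by
  refine ⟨periodic_of_T' fun z => ?_, h.holo, ?_⟩
  · rw [h.smul_eq hT, denom_T, one_zpow, one_mul]
  · simpa using h.bdd 1

section Cosets

variable (Γ) in
/-- the cosets indexing conjugates -/
abbrev QtG : Type := SL(2, ℤ) ⧸ Γ

instance [Γ.FiniteIndex] : Fintype (QtG Γ) := Fintype.ofFinite _

variable (Γ) in
/-- the conjugates of `f` -/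
def cjG (k : ℤ) (f : ℍ → ℂ) (q : QtG Γ) : ℍ → ℂ := f ∣[k] (q.out)⁻¹

theorem cjG_mk (hf : ∀ γ ∈ Γ, f ∣[k] γ = f) (g : SL(2, ℤ)) :
    cjG Γ k f (g : QtG Γ) = f ∣[k] g⁻¹ := by
  obtain ⟨h, hh⟩ := QuotientGroup.mk_out_eq_mul Γ g
  rw [cjG, hh, mul_inv_rev, SlashAction.slash_mul, hf _ (inv_mem h.2)]

theorem cjG_one (hf : ∀ γ ∈ Γ, f ∣[k] γ = f) :
    cjG Γ k f ((1 : SL(2, ℤ)) : QtG Γ) = f := by
  rw [cjG_mk hf, inv_one, SlashAction.slash_one]

theorem cjG_slash (hf : ∀ γ ∈ Γ, f ∣[k] γ = f) (q : QtG Γ) (γ : SL(2, ℤ)) :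
    cjG Γ k f q ∣[k] γ = cjG Γ k f (γ⁻¹ • q) := by
  induction q using QuotientGroup.induction_on with
  | H g =>
    rw [cjG_mk hf, show γ⁻¹ • (g : QtG Γ) = ((γ⁻¹ * g : SL(2, ℤ)) : QtG Γ) from rfl, cjG_mk hf,
      mul_inv_rev, inv_inv, SlashAction.slash_mul]

theorem IsG.isFam [Γ.FiniteIndex] (h : IsG Γ k f) : IsFam k (cjG Γ k f) where
  perm γ := ⟨MulAction.toPerm γ⁻¹, fun q ↦ cjG_slash h.slash q γ⟩
  holo _ := MDifferentiable.slash h.holo k _
  bdd _ := h.bdd _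

end Cosets

/-- **Conjugation of a modular form by an automorphism of `ℂ`**, given a formal quotient. -/
theorem exists_conj_of [Γ.FiniteIndex] (hT : ModularGroup.T ∈ Γ) (σ : ℂ ≃+* ℂ) {w : ℤ}
    {u D : ℍ → ℂ} (hf : IsG Γ k f) (huQ : u ∈ QR 1) (hDQ : D ∈ QR 1) (hD0 : D ≠ 0)
    (huw : ∀ γ ∈ Γ, ∀ z : ℍ, u (γ • z) = denom γ z ^ (k + w) * u z)
    (hDw : ∀ γ ∈ Γ, ∀ z : ℍ, D (γ • z) = denom γ z ^ w * D z)
    (huq' : qExpansion 1 u = sig σ (qExpansion 1 f) * qExpansion 1 D) :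
    ∃ g, IsG Γ k g ∧ qExpansion 1 g = sig σ (qExpansion 1 f) ∧
      (IsCuspidal k f → IsCuspidal k g) := by
  set n := Fintype.card (QtG Γ) with hn
  have hfam := hf.isFam
  have hex : ∀ m, ∃ g, m ≤ n → IsM1 (((n : ℤ) - m) * k) g ∧
      qExpansion 1 g = sig σ (qExpansion 1 (cf (cjG Γ k f) m)) := by
    intro m
    by_cases hm : m ≤ n
    · obtain ⟨g, hg⟩ := (hfam.isM1_cf hm).exists_conj σ
      exact ⟨g, fun _ ↦ hg⟩
    · exact ⟨0, fun h ↦ absurd h hm⟩
  choose a' ha' using hex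
  have han : a' n = 1 := by
    apply eq_of_qExpansion_eq one_pos (ha' n le_rfl).1.mem_QR (QR 1).one_mem
    rw [(ha' n le_rfl).2, cf_card, qExpansion_one, map_one]
  have hrelq : ∑ m ∈ Finset.range (n + 1), qExpansion 1 (a' m) * (sig σ (qExpansion 1 f)) ^ m =
      0 := by
    obtain ⟨h3, h4⟩ := qExp_poly (n := n + 1) (A := cf (cjG Γ k f)) (B := f)
      (fun m hm ↦ (hfam.isM1_cf (m := m) (by omega)).mem_QR) (hf.mem_QR hT)
    have h5 : ∑ m ∈ Finset.range (n + 1), cf (cjG Γ k f) m * f ^ m = 0 := by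
      ext z
      have := sum_cf (cjG Γ k f) z (f z)
      rw [Finset.prod_eq_zero (Finset.mem_univ ((1 : SL(2, ℤ)) : QtG Γ))
        (by rw [cjG_one hf.slash, sub_self])] at this
      simpa [Finset.sum_apply] using this
    rw [h5, qExpansion_zero] at h4
    have h6 := congrArg (sig σ) h4
    rw [map_zero, map_sum] at h6
    rw [h6]
    refine Finset.sum_congr rfl fun m hm ↦ ?_
    rw [map_mul, map_pow, (ha' m (by have := Finset.mem_range.mp hm; omega)).2]
  have hrel : ∑ m ∈ Finset.range (n + 1), a' m * D ^ (n - m) * u ^ m = 0 := by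
    have hA : ∀ m < n + 1, a' m * D ^ (n - m) ∈ QR 1 := fun m hm ↦
      (QR 1).mul_mem (ha' m (by omega)).1.mem_QR ((QR 1).pow_mem hDQ _)
    obtain ⟨h3, h4⟩ := qExp_poly (n := n + 1) (A := fun m ↦ a' m * D ^ (n - m)) (B := u)
      hA huQ
    apply eq_of_qExpansion_eq one_pos h3 (QR 1).zero_mem
    rw [h4, qExpansion_zero]
    have h5 : ∀ m ∈ Finset.range (n + 1), qExpansion 1 (a' m * D ^ (n - m)) *
        qExpansion 1 u ^ m = (qExpansion 1 (a' m) * (sig σ (qExpansion 1 f)) ^ m) *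
          qExpansion 1 D ^ n := by
      intro m hm
      have hm' : m ≤ n := Nat.lt_succ_iff.mp (Finset.mem_range.mp hm)
      rw [qExp_mul (ha' m hm').1.mem_QR ((QR 1).pow_mem hDQ _), huq', mul_pow]
      have h6 := map_pow (qHom 1 one_pos) ⟨D, hDQ⟩ (n - m)
      rw [qHom_apply, qHom_apply] at h6
      rw [show qExpansion 1 (D ^ (n - m)) = _ from h6]
      have h7 : qExpansion 1 D ^ n = qExpansion 1 D ^ (n - m) *
          qExpansion 1 D ^ m := by rw [← pow_add]; congr 1; omega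
      rw [h7]
      ring
    rw [Finset.sum_congr rfl h5, ← Finset.sum_mul, hrelq, zero_mul]
  -- dividing
  obtain ⟨g, hg, hgu⟩ := exists_quotient (n := n) huQ.2.1 hDQ.2.1 hD0 a'
    (fun m hm ↦ (ha' m hm.le).1.holo) (fun z ↦ by
      have := congrFun hrel z
      rw [Finset.sum_apply, Finset.sum_range_succ, han] at this
      simp only [Pi.mul_apply, Pi.pow_apply, Nat.sub_self, pow_zero, Pi.one_apply, one_mul,
        Pi.zero_apply] at this
      rw [add_comm, ← this]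
      congr 1
      refine Finset.sum_congr rfl fun m _ ↦ by ring)
  have hgrel : ∑ m ∈ Finset.range (n + 1), a' m * g ^ m = 0 := by
    have h1 : (∑ m ∈ Finset.range (n + 1), a' m * g ^ m) * D ^ n = 0 := by
      rw [← hrel, Finset.sum_mul]
      refine Finset.sum_congr rfl fun m hm ↦ ?_
      have hm' : m ≤ n := Nat.lt_succ_iff.mp (Finset.mem_range.mp hm)
      have h7 : D ^ n = D ^ (n - m) * D ^ m := by rw [← pow_add]; congr 1; omega
      rw [h7, hgu]
      ring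
    rcases (UpperHalfPlane.mul_eq_zero_iff (HolA.sum_mem fun m hm ↦ HolA.mul_mem
      (ha' m (Nat.lt_succ_iff.mp (Finset.mem_range.mp hm))).1.holo (HolA.pow_mem hg m))
      (HolA.pow_mem hDQ.2.1 n)).mp h1 with h2 | h2
    · exact h2
    · exfalso
      apply hD0
      ext z
      exact (pow_eq_zero_iff (Fintype.card_ne_zero (α := QtG Γ))).mp (congrFun h2 z)
  have hgrel' : ∀ γ : SL(2, ℤ), ∀ z, (g ∣[k] γ) z ^ n +
      ∑ m ∈ Finset.range n, a' m z * (g ∣[k] γ) z ^ m = 0 := by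
    intro γ z
    have := slash_poly (n := n) (A := a') (B := g) γ (fun m hm ↦ (ha' m hm).1.slash γ)
      (fun z ↦ by simpa [Finset.sum_apply] using congrFun hgrel z) z
    rw [Finset.sum_range_succ, han] at this
    rw [add_comm]
    simpa using this
  have hMN : IsG Γ k g := by
    refine ⟨fun γ hγ ↦ ?_, hg, fun γ ↦ ?_⟩
    · have h1 : (g ∣[k] γ - g) * D = 0 := by
        ext z
        have hj := denom_ne_zero γ z
        have e1 := huw γ hγ z
        rw [hgu, Pi.mul_apply, Pi.mul_apply, hDw γ hγ, zpow_add₀ hj] at e1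
        have e2 := (slash_eq_iff (k := k) (f := g) (γ := γ) (z := z)).mp rfl
        rw [e2] at e1
        simp only [Pi.mul_apply, Pi.sub_apply, Pi.zero_apply]
        have hj1 : denom γ z ^ k ≠ 0 := zpow_ne_zero _ hj
        have hj2 : denom γ z ^ w ≠ 0 := zpow_ne_zero _ hj
        apply mul_left_cancel₀ (mul_ne_zero hj1 hj2)
        linear_combination e1
      rcases (UpperHalfPlane.mul_eq_zero_iff (HolA.sub_mem
        (MDifferentiable.slash hg k _) hg) hDQ.2.1).mp h1 with h2 | h2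
      · exact sub_eq_zero.mp h2
      · exact absurd h2 hD0
    · exact isBounded_of_monic (fun m hm ↦ (ha' m hm.le).1.bdd) (hgrel' γ)
  refine ⟨g, hMN, ?_, fun hcusp γ ↦ ?_⟩
  · have h1 : qExpansion 1 g * qExpansion 1 D =
        sig σ (qExpansion 1 f) * qExpansion 1 D := by
      rw [← huq', hgu, qExp_mul (hMN.mem_QR hT) hDQ]
    refine mul_right_cancel₀ ?_ h1
    intro h0
    exact hD0 ((qExpansion_eq_zero_iff one_pos hDQ.1 hDQ.2.1 hDQ.2.2).mp h0)
  · refine tendsto_zero_of_monic_eq_zero (fun m hm ↦ ?_) (hgrel' γ)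
    refine ((ha' m hm.le).1.isS1_of_coeff_zero ?_).zero
    rw [(ha' m hm.le).2, coeff_sig, (hfam.isS1_cf (fun q ↦ hcusp _) hm).coeff_zero, map_zero]

end

end Fermat.Agent.H23.W1
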