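import Fermat.Agent.H18J.Full
import Fermat.Agent.H18J.Diam2
import Fermat.Agent.H23.W1.Gen

/-!
# Conjugation of modular forms for `Γ_H(N)` by automorphisms of `ℂ`, given an auxiliary form
-/

set_option autoImplicit false

namespace Fermat.Agent.H23.W1

open UpperHalfPlane Function ModularForm PowerSeries CongruenceSubgroup Filter
open Fermat.Agent.IntStr hiding tr
open Fermat.Agent.H02 (modAlg IsSlow tr Good IsLau isLau_of_mem tr_apply)
open Fermat.Agent.H18J (ringS FK mem_FK_iff mem_FK_of_mem theta_C coeffMap_mem_FK coeffMap_dSinv)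
open Fermat.Agent.H22 (GamH)
open Fermat.Agent.Igusa (IsExp dS dSinv dl dl_ne_zero isExp_dl isExp_dl_inv isExp_ofPowerSeries
  dS_mul_dSinv dl_smul mdiff_dl_inv)
open Fermat.Agent.H18 (theta)
open ModularCurve (coeffMap)
open scoped Manifold Topology MatrixGroups ModularForm Real

noncomputable section

theorem isExp_of_QR {f : ℍ → ℂ} (hf : f ∈ QR 1) :
    IsExp 1 f (HahnSeries.ofPowerSeries ℤ ℂ (qExpansion 1 f)) := by
  refine isExp_ofPowerSeries fun τ => ?_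
  have h := τ.hasSum_qExpansion one_pos hf.1 hf.2.1 hf.2.2
  simpa only [smul_eq_mul, Nat.cast_one] using h

theorem good_mem_QR {f : ℍ → ℂ} (hf : Good f) : f ∈ QR 1 := ⟨hf.per', hf.holo, hf.bdd⟩

theorem dl_mem_QR : dl ∈ QR 1 := good_mem_QR H02.good_discriminant

theorem qExp_dl_eq : HahnSeries.ofPowerSeries ℤ ℂ (qExpansion 1 dl) = dS ℂ :=
  (isExp_of_QR dl_mem_QR).unique one_pos isExp_dl

theorem qExp_pow {f : ℍ → ℂ} (hf : f ∈ QR 1) (n : ℕ) :
    qExpansion 1 (f ^ n) = qExpansion 1 f ^ n := by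
  have h6 := map_pow (qHom 1 one_pos) ⟨f, hf⟩ n
  rw [qHom_apply, qHom_apply] at h6
  exact h6

/-- the modular function `f G / Δ^m` -/
def quo (m : ℕ) (f G : ℍ → ℂ) : ℍ → ℂ := fun z => f z * G z * ((dl z)⁻¹) ^ m

variable {Γ : Subgroup SL(2, ℤ)} {k w : ℤ} {m : ℕ} {f G : ℍ → ℂ}

theorem tr_quo (hkw : k + w = 12 * m) (δ : SL(2, ℤ)) :
    tr δ (quo m f G) = quo m (f ∣[k] δ) (G ∣[w] δ) := by
  ext z
  have h1 := denom_ne_zero δ z
  have e1 : f (δ • z) = denom δ z ^ k * (f ∣[k] δ) z := slash_eq_iff.mp rfl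
  have e2 : G (δ • z) = denom δ z ^ w * (G ∣[w] δ) z := slash_eq_iff.mp rfl
  rw [tr_apply, quo, quo, dl_smul, e1, e2]
  have e3 : denom δ z ^ k * denom δ z ^ w = (denom δ z ^ 12) ^ m := by
    rw [← zpow_add₀ h1, hkw, ← pow_mul]
    norm_cast
  have h2 := dl_ne_zero z
  rw [_root_.mul_inv, mul_pow, inv_pow, ← e3]
  have h3 := zpow_ne_zero k h1
  have h4 := zpow_ne_zero w h1
  field_simp

theorem mdiff_quo (hf : MDiff f) (hG : MDiff G) : MDiff (quo m f G) :=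
  (hf.mul hG).mul (mdiff_dl_inv.pow m)

theorem quo_mul (z : ℍ) : quo m f G z * dl z ^ m = f z * G z := by
  have h2 := dl_ne_zero z
  rw [quo, mul_assoc, ← mul_pow, inv_mul_cancel₀ h2, one_pow, mul_one]

theorem quo_mem (hkw : k + w = 12 * m) (hf : IsG Γ k f) (hG : IsG Γ w G) :
    quo m f G ∈ modAlg Γ := by
  refine ⟨⟨mdiff_quo hf.holo hG.holo, fun δ => ⟨m, ?_⟩⟩, fun γ hγ => ?_⟩
  · have h1 : tr δ (quo m f G) * ModularForm.discriminant ^ m = (f ∣[k] δ) * (G ∣[w] δ) := by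
      rw [tr_quo hkw]
      ext z
      exact quo_mul z
    rw [h1]
    exact (hf.bdd δ).mul (hG.bdd δ)
  · rw [tr_quo hkw, hf.slash γ hγ, hG.slash γ hγ]

theorem isExp_quo (hf : f ∈ QR 1) (hG : G ∈ QR 1) :
    IsExp 1 (quo m f G) (HahnSeries.ofPowerSeries ℤ ℂ (qExpansion 1 f * qExpansion 1 G) *
      dSinv ℂ ^ m) := by
  rw [map_mul]
  exact ((isExp_of_QR hf).mul (isExp_of_QR hG)).mul (isExp_dl_inv.pow m)

theorem dS_pow_mul (R : Type*) [CommRing R] (m : ℕ) : dSinv R ^ m * dS R ^ m = 1 := by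
  rw [← mul_pow, mul_comm (dSinv R), dS_mul_dSinv, one_pow]

variable {N : ℕ} [NeZero N] {H : Subgroup (ZMod N)ˣ}

/-- **Conjugation of a modular form by an automorphism of `ℂ`**, given an auxiliary form. -/
theorem exists_conj_of_aux (hkw : k + w = 12 * m) (σ : ℂ ≃+* ℂ) (hG : IsG (GamH N H) w G)
    (hG0 : G ≠ 0) (hGσ : sig σ (qExpansion 1 G) = qExpansion 1 G) (hf : IsG (GamH N H) k f) :
    ∃ g, IsG (GamH N H) k g ∧ qExpansion 1 g = sig σ (qExpansion 1 f) ∧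
      (IsCuspidal k f → IsCuspidal k g) := by
  have hT : ModularGroup.T ∈ GamH N H := H18J.IsLevel.T_mem N
  have hfQ := hf.mem_QR hT
  have hGQ := hG.mem_QR hT
  set X : LaurentSeries ℂ := HahnSeries.ofPowerSeries ℤ ℂ (qExpansion 1 f * qExpansion 1 G) *
      dSinv ℂ ^ m with hX
  have hXF : X ∈ FK ℂ (GamH N H) :=
    mem_FK_of_mem ⟨_, quo_mem hkw hf hG, by rw [theta_C]; exact isExp_quo hfQ hGQ⟩
  have hσX : coeffMap σ.toRingHom X = HahnSeries.ofPowerSeries ℤ ℂ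
      (sig σ (qExpansion 1 f) * qExpansion 1 G) * dSinv ℂ ^ m := by
    rw [hX, map_mul, map_pow, coeffMap_dSinv, ModularCurve.coeffMap_ofPowerSeries]
    congr 2
    rw [← hGσ]
    show (sig σ) (qExpansion 1 f * sig σ (qExpansion 1 G)) = _
    rw [hGσ, map_mul, hGσ]
  obtain ⟨A, ⟨a, ha, hA⟩, B, ⟨b, hb, hB⟩, hB0, hAB⟩ : ∃ A ∈ ringS ℂ (GamH N H),
      ∃ B ∈ ringS ℂ (GamH N H), B ≠ 0 ∧ coeffMap σ.toRingHom X * B = A := by
    obtain ⟨A, hA, B, hB, h1⟩ := mem_FK_iff.mp (coeffMap_mem_FK σ.toRingHom hXF)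
    by_cases hB0 : B = 0
    · refine ⟨0, zero_mem _, 1, one_mem _, one_ne_zero, ?_⟩
      rw [h1, hB0, div_zero, zero_mul]
    · exact ⟨A, hA, B, hB, hB0, by rw [h1]; field_simp⟩
  rw [theta_C] at hA hB
  obtain ⟨n1, hn1⟩ := isLau_of_mem hT ha
  obtain ⟨n2, hn2⟩ := isLau_of_mem hT hb
  set n := max n1 n2 with hn
  have haQ : a * dl ^ n ∈ QR 1 := good_mem_QR (hn1.mono (le_max_left n1 n2)).good
  have hbQ : b * dl ^ n ∈ QR 1 := good_mem_QR (hn2.mono (le_max_right n1 n2)).good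
  have hdm : dl ^ m ∈ QR 1 := (QR 1).pow_mem dl_mem_QR m
  have haE : HahnSeries.ofPowerSeries ℤ ℂ (qExpansion 1 (a * dl ^ n)) = A * dS ℂ ^ n :=
    (isExp_of_QR haQ).unique one_pos (hA.mul (isExp_dl.pow n))
  have hbE : HahnSeries.ofPowerSeries ℤ ℂ (qExpansion 1 (b * dl ^ n)) = B * dS ℂ ^ n :=
    (isExp_of_QR hbQ).unique one_pos (hB.mul (isExp_dl.pow n))
  have hb0 : b ≠ 0 := by
    rintro rfl
    exact hB0 (hB.eq_zero one_pos)
  refine exists_conj_of (Γ := GamH N H) (k := k) (w := w + 12 * n) hT σ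
    (u := a * dl ^ n * dl ^ m) (D := G * (b * dl ^ n)) hf ((QR 1).mul_mem haQ hdm)
    ((QR 1).mul_mem hGQ hbQ) ?_ ?_ ?_ ?_
  · intro h0
    rcases (UpperHalfPlane.mul_eq_zero_iff hGQ.2.1 hbQ.2.1).mp h0 with h | h
    · exact hG0 h
    · apply hb0
      ext z
      have := congrFun h z
      simp only [Pi.mul_apply, Pi.pow_apply, Pi.zero_apply, mul_eq_zero] at this
      rcases this with h1 | h1
      · exact h1
      · exact absurd h1 (pow_ne_zero _ (dl_ne_zero z))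
  · intro γ hγ z
    have h1 := congrFun (ha.2 γ hγ) z
    rw [tr_apply] at h1
    have hj := denom_ne_zero γ z
    simp only [Pi.mul_apply, Pi.pow_apply, dl_smul, h1]
    rw [show k + (w + 12 * (n : ℤ)) = 12 * (n : ℤ) + 12 * (m : ℤ) by rw [← hkw]; ring,
      zpow_add₀ hj]
    have e1 : ∀ j : ℕ, denom γ z ^ (12 * (j : ℤ)) = (denom γ z ^ 12) ^ j := fun j => by
      rw [← pow_mul]; norm_cast
    rw [e1, e1]
    ring
  · intro γ hγ z
    have h1 := congrFun (hb.2 γ hγ) z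
    rw [tr_apply] at h1
    have hj := denom_ne_zero γ z
    simp only [Pi.mul_apply, Pi.pow_apply, dl_smul, h1, hG.smul_eq hγ]
    rw [zpow_add₀ hj]
    have e1 : denom γ z ^ (12 * (n : ℤ)) = (denom γ z ^ 12) ^ n := by
      rw [← pow_mul]; norm_cast
    rw [e1]
    ring
  · apply HahnSeries.ofPowerSeries_injective (Γ := ℤ) (R := ℂ)
    rw [qExp_mul haQ hdm, qExp_mul hGQ hbQ, ← mul_assoc, map_mul, map_mul, haE, hbE,
      qExp_pow dl_mem_QR, map_pow, qExp_dl_eq, ← hAB, hσX]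
    calc _ = HahnSeries.ofPowerSeries ℤ ℂ (sig σ (qExpansion 1 f) * qExpansion 1 G) *
          B * dS ℂ ^ n * (dSinv ℂ ^ m * dS ℂ ^ m) := by ring
      _ = _ := by rw [dS_pow_mul, mul_one]; ring

end

end Fermat.Agent.H23.W1
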