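import Fermat.Agent.H18J.Eis2
import Fermat.Agent.H23.W1.Gen

set_option autoImplicit false

/-!
# An Eisenstein series of weight 11 on `Γ₁(N)` with integral `q`-expansion
-/

noncomputable section

open UpperHalfPlane hiding I
open Filter Function Complex Manifold CongruenceSubgroup EisensteinSeries
  ModularForm Matrix Topology
open scoped MatrixGroups Real Nat

namespace Fermat.Agent.H23.W1

open Fermat.Agent.H02 (Fa mdiff_Fa Fa_slash isBoundedAtImInfty_Fa slash_T_zpow conj_T_mem_Gamma0)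
open Fermat.Agent.H18J (ind1 ind ind1_abs_le norm_ind_le ind1_zero norm_exp_lt_one ind_slash)
open Fermat.Agent.IntStr (QR)

/-- the normalising constant -/
def C11 : ℂ := (-2 * π * Complex.I) ^ 11 / (10 ! : ℕ)

theorem C11_ne_zero : C11 ≠ 0 := by
  rw [C11]
  refine div_ne_zero (pow_ne_zero _ ?_) (by exact_mod_cast Nat.factorial_ne_zero 10)
  simp [Real.pi_ne_zero, Complex.I_ne_zero]

/-- weights -/
def wto (N : ℕ) (m : ZMod N) (x : ℤ) : ℤ := ind1 N m x - ind1 N m (-x)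

/-- the coefficients -/
def gco (N : ℕ) (m : ZMod N) (r : ℕ) : ℤ :=
  ∑ d ∈ r.divisorsAntidiagonal, wto N m d.1 * (d.2 : ℤ) ^ 10

theorem gco_zero (N : ℕ) (m : ZMod N) : gco N m 0 = 0 := by simp [gco]

theorem wto_abs_le (N : ℕ) (m : ZMod N) (x : ℤ) : |wto N m x| ≤ 2 := by
  rw [wto]
  exact (abs_sub _ _).trans (by have := ind1_abs_le N m x; have := ind1_abs_le N m (-x); omega)

section

variable {N : ℕ} {m : ZMod N}

/-- the row sums -/
def Sro (τ : ℍ) (x : ℤ) : ℂ := ∑' y : ℤ, eisSummand 11 ![x, y] τ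

theorem Sro_neg (τ : ℍ) (x : ℤ) : Sro τ (-x) = - Sro τ x := by
  rw [Sro, Sro, ← tsum_comp_neg, ← tsum_neg]
  refine tsum_congr fun y => ?_
  simp only [eisSummand, Matrix.cons_val_zero, Matrix.cons_val_one]
  rw [show ((-x : ℤ) : ℂ) * τ + ((-y : ℤ) : ℂ) = -((x : ℂ) * τ + y) by push_cast; ring]
  exact Odd.neg_zpow (by decide) _

theorem Sro_pnat (τ : ℍ) (n : ℕ+) :
    Sro τ n = C11 * ∑' k : ℕ+, (k : ℂ) ^ 10 * cexp (2 * π * Complex.I * τ) ^ (n * k : ℕ) := by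
  have H := EisensteinSeries.qExpansion_identity_pnat (k := 10) (by norm_num)
    ⟨n * τ, by simpa using τ.2⟩
  rw [Sro, C11]
  convert! H using 1
  · refine tsum_congr fun y => ?_
    simp only [eisSummand, Matrix.cons_val_zero, Matrix.cons_val_one]
    rw [_root_.zpow_neg, one_div]
    rfl
  · congr 1
    refine tsum_congr fun k => ?_
    rw [pow_mul, ← Complex.exp_nat_mul _ (n : ℕ)]
    congr 3
    ring

theorem summable_prod11 (τ : ℍ) :
    Summable fun x : ℤ × ℤ => ((ind1 N m x.1 : ℤ) : ℂ) * eisSummand 11 ![x.1, x.2] τ := by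
  refine Summable.of_norm_bounded (g := fun x : ℤ × ℤ => ‖eisSummand 11 ![x.1, x.2] τ‖) ?_
    fun x => ?_
  · exact (summable_prod_eisSummand (k := 11) (by norm_num) τ).norm
  · rw [norm_mul, Complex.norm_intCast]
    have := ind1_abs_le N m x.1
    have h : (|((ind1 N m x.1 : ℤ) : ℝ)|) ≤ 1 := by exact_mod_cast this
    exact mul_le_of_le_one_left (norm_nonneg _) h

theorem row_mul11 (τ : ℍ) (x : ℤ) :
    ∑' y : ℤ, ((ind1 N m x : ℤ) : ℂ) * eisSummand 11 ![x, y] τ =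
      ((ind1 N m x : ℤ) : ℂ) * Sro τ x := by
  rw [Sro]
  exact _root_.tsum_mul_left

/-- `∑_{(c,d), c ≡ m mod N} (c τ + d)^{-11}` -/
def Go (N : ℕ) (m : ZMod N) : ℍ → ℂ := Fa 11 (ind N m)

theorem Go_eq_tsum (τ : ℍ) : Go N m τ = ∑' x : ℤ, ((ind1 N m x : ℤ) : ℂ) * Sro τ x := by
  rw [Go, Fa, ← (finTwoArrowEquiv ℤ).symm.tsum_eq]
  have h1 := (summable_prod11 (N := N) (m := m) τ).tsum_prod
  refine Eq.trans ?_ (h1.trans (tsum_congr fun x => ?_))
  · refine tsum_congr fun x => ?_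
    simp only [finTwoArrowEquiv_symm_apply, ind, Matrix.cons_val_zero]
  · exact row_mul11 τ x

theorem summable_row11 (τ : ℍ) : Summable fun x : ℤ => ((ind1 N m x : ℤ) : ℂ) * Sro τ x := by
  have h1 := (summable_prod11 (N := N) (m := m) τ).prod
  exact h1.congr fun x => row_mul11 τ x

theorem Go_eq_tsum_pnat (hm : m ≠ 0) (τ : ℍ) :
    Go N m τ = ∑' n : ℕ+, ((wto N m n : ℤ) : ℂ) * Sro τ n := by
  rw [Go_eq_tsum, tsum_int_eq_zero_add_tsum_pnat (summable_row11 τ), ind1_zero hm, Int.cast_zero,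
    zero_mul, zero_add, ← Summable.tsum_add]
  · refine tsum_congr fun n => ?_
    rw [Sro_neg, wto, Int.cast_sub]
    ring
  · exact ((summable_int_iff_summable_nat_and_neg.mp (summable_row11 τ)).1).comp_injective
      PNat.coe_injective
  · exact ((summable_int_iff_summable_nat_and_neg.mp (summable_row11 τ)).2).comp_injective
      PNat.coe_injective

theorem summable_double11 (τ : ℍ) : Summable fun c : ℕ+ × ℕ+ =>
    ((wto N m c.1 : ℤ) : ℂ) *
      ((c.2 : ℂ) ^ 10 * cexp (2 * π * Complex.I * τ) ^ (c.1 * c.2 : ℕ)) := by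
  refine Summable.of_norm_bounded (g := fun c : ℕ+ × ℕ+ =>
    2 * ‖(c.2 : ℂ) ^ 10 * cexp (2 * π * Complex.I * τ) ^ (c.1 * c.2 : ℕ)‖) ?_ fun c => ?_
  · exact (summable_prod_mul_pow 10 (norm_exp_lt_one τ)).norm.mul_left 2
  · rw [norm_mul, Complex.norm_intCast]
    have := wto_abs_le N m c.1
    have h : (|((wto N m c.1 : ℤ) : ℝ)|) ≤ 2 := by exact_mod_cast this
    exact mul_le_mul_of_nonneg_right h (norm_nonneg _)

theorem Go_eq_double (hm : m ≠ 0) (τ : ℍ) :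
    Go N m τ = C11 * ∑' c : ℕ+ × ℕ+, ((wto N m c.1 : ℤ) : ℂ) *
      ((c.2 : ℂ) ^ 10 * cexp (2 * π * Complex.I * τ) ^ (c.1 * c.2 : ℕ)) := by
  rw [Go_eq_tsum_pnat hm, (summable_double11 τ).tsum_prod, ← tsum_mul_left]
  refine tsum_congr fun n => ?_
  rw [Sro_pnat, mul_left_comm]
  congr 1
  exact tsum_mul_left.symm

theorem hasSum_double11 (τ : ℍ) : HasSum (fun r : ℕ =>
    ((gco N m r : ℤ) : ℂ) * cexp (2 * π * Complex.I * τ) ^ r)
    (∑' c : ℕ+ × ℕ+, ((wto N m c.1 : ℤ) : ℂ) *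
      ((c.2 : ℂ) ^ 10 * cexp (2 * π * Complex.I * τ) ^ (c.1 * c.2 : ℕ))) := by
  have h1 := (summable_double11 (N := N) (m := m) τ).hasSum
  rw [← sigmaAntidiagonalEquivProd.hasSum_iff] at h1
  have h2 := h1.sigma (g := fun r : ℕ+ => ((gco N m r : ℤ) : ℂ) *
    cexp (2 * π * Complex.I * τ) ^ (r : ℕ)) fun r => ?_
  · rwa [← Function.Injective.hasSum_iff PNat.coe_injective]
    intro r hr
    have : r = 0 := by
      by_contra h0
      exact hr ⟨⟨r, Nat.pos_of_ne_zero h0⟩, rfl⟩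
    rw [this, gco_zero, Int.cast_zero, zero_mul]
  · have h3 := hasSum_fintype (fun c : (r : ℕ).divisorsAntidiagonal =>
      (fun c : ℕ+ × ℕ+ => ((wto N m c.1 : ℤ) : ℂ) *
        ((c.2 : ℂ) ^ 10 * cexp (2 * π * Complex.I * τ) ^ (c.1 * c.2 : ℕ)))
          (sigmaAntidiagonalEquivProd ⟨r, c⟩))
    convert! h3 using 1
    rw [gco, Int.cast_sum, Finset.sum_mul, ← Finset.sum_attach]
    refine Finset.sum_congr rfl fun c _ => ?_
    have h4 : (c.1.1 * c.1.2 : ℕ) = r := (Nat.mem_divisorsAntidiagonal.mp c.2).1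
    simp only [sigmaAntidiagonalEquivProd, divisorsAntidiagonalFactors, Equiv.coe_fn_mk,
      PNat.mk_coe]
    rw [h4]
    push_cast
    ring

/-- The `q`-expansion of `Go N m`. -/
theorem hasSum_Go (hm : m ≠ 0) (τ : ℍ) : HasSum (fun r : ℕ =>
    ((gco N m r : ℤ) : ℂ) * cexp (2 * π * Complex.I * τ) ^ r) (C11⁻¹ * Go N m τ) := by
  rw [Go_eq_double hm, inv_mul_cancel_left₀ C11_ne_zero]
  exact hasSum_double11 τ

theorem Go_slash {δ : SL(2, ℤ)} (hδ : δ ∈ Gamma0 N) (m : ZMod N) :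
    Go N m ∣[(11 : ℤ)] δ = Go N (m * ((δ 0 0 : ℤ) : ZMod N)) := by
  rw [Go, Fa_slash]
  congr 1
  funext v
  exact ind_slash hδ v

theorem Go_slash_periodic (m : ZMod N) (δ : SL(2, ℤ)) (z : ℍ) :
    (Go N m ∣[(11 : ℤ)] δ) ((ModularGroup.T ^ (N : ℤ) : SL(2, ℤ)) • z) =
      (Go N m ∣[(11 : ℤ)] δ) z := by
  rw [← slash_T_zpow 11 (Go N m ∣[(11 : ℤ)] δ), ← SlashAction.slash_mul]
  have h1 : δ * ModularGroup.T ^ (N : ℤ) = (δ * ModularGroup.T ^ (N : ℤ) * δ⁻¹) * δ := by group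
  have h2 : (ModularGroup.T ^ (N : ℤ)) ∈ CongruenceSubgroup.Gamma N := by
    simpa using ModularGroup_T_pow_mem_Gamma (N : ℤ) (N : ℤ) dvd_rfl
  have h3 : δ * ModularGroup.T ^ (N : ℤ) * δ⁻¹ ∈ CongruenceSubgroup.Gamma N :=
    (Gamma_normal N).conj_mem _ h2 δ
  rw [Gamma_mem] at h3
  rw [h1, SlashAction.slash_mul, Go_slash (conj_T_mem_Gamma0 δ), h3.1, mul_one]

theorem isBounded_Go_slash [NeZero N] (m : ZMod N) (δ : SL(2, ℤ)) :
    IsBoundedAtImInfty (Go N m ∣[(11 : ℤ)] δ) := by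
  have h := Go_slash_periodic m δ
  rw [Go, Fa_slash] at h ⊢
  exact isBoundedAtImInfty_Fa (by norm_num) (fun v => norm_ind_le N m _) (NeZero.pos N) h

end

variable (N : ℕ) [NeZero N]

/-- the Eisenstein series of weight 11 -/
def E11 : ℍ → ℂ := C11⁻¹ • Go N 1

theorem mem_Gamma0_of_Gamma1 {γ : SL(2, ℤ)} (h : γ ∈ Gamma1 N) : γ ∈ Gamma0 N := by
  rw [Gamma0_mem]
  exact ((Gamma1_mem N γ).mp h).2.2

theorem T_mem_Gamma1 : ModularGroup.T ∈ Gamma1 N := by
  rw [Gamma1_mem]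
  simp [ModularGroup.T]

theorem isG_E11 : IsG (Gamma1 N) 11 (E11 N) where
  slash γ hγ := by
    rw [E11, SL_smul_slash, Go_slash (mem_Gamma0_of_Gamma1 N hγ),
      ((Gamma1_mem N γ).mp hγ).1, mul_one]
  holo := (mdiff_Fa (by norm_num) (norm_ind_le N 1)).const_smul _
  bdd γ := by
    rw [E11, SL_smul_slash]
    exact (isBounded_Go_slash 1 γ).const_smul_left _

theorem one_ne_zero_of (hN : 3 ≤ N) : (1 : ZMod N) ≠ 0 := by
  haveI : Fact (1 < N) := ⟨by omega⟩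
  exact one_ne_zero

theorem qExp_E11 (hN : 3 ≤ N) : qExpansion 1 (E11 N) = PowerSeries.mk fun r => ((gco N 1 r : ℤ) : ℂ) := by
  have hQ : E11 N ∈ QR 1 := (isG_E11 N).mem_QR (T_mem_Gamma1 N)
  have hg : H02.Good (E11 N) := ⟨hQ.2.1, by simpa using hQ.1, hQ.2.2⟩
  refine hg.qExpansion_unique fun z => ?_
  have h := hasSum_Go (one_ne_zero_of N hN) z
  convert! h using 2 with r
  simp only [smul_eq_mul, Function.Periodic.qParam, ofReal_one, div_one]

theorem gco_one (hN : 3 ≤ N) : gco N 1 1 = 1 := by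
  have h : (1 : ZMod N) ≠ -1 := by
    haveI : Fact (2 < N) := ⟨by omega⟩
    intro h
    exact ZMod.neg_one_ne_one h.symm
  have h2 : ((-1 : ℤ) : ZMod N) ≠ 1 := by push_cast; exact h.symm
  rw [gco]
  simp [wto, ind1, h.symm]

theorem E11_ne_zero (hN : 3 ≤ N) : E11 N ≠ 0 := by
  intro h
  have h1 := qExp_E11 N hN
  rw [h, qExpansion_zero] at h1
  have h2 := congrArg (PowerSeries.coeff 1) h1
  rw [PowerSeries.coeff_mk, gco_one N hN, map_zero] at h2
  norm_num at h2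

theorem sig_E11 (hN : 3 ≤ N) (σ : ℂ ≃+* ℂ) :
    IntStr.sig σ (qExpansion 1 (E11 N)) = qExpansion 1 (E11 N) := by
  ext n
  rw [IntStr.coeff_sig, qExp_E11 N hN, PowerSeries.coeff_mk]
  simp

end Fermat.Agent.H23.W1
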