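import Fermat.Agent.H18J.Frac
import Fermat.Agent.Q.Val
import Fermat.Agent.H23.W1.Conj
import Fermat.Agent.H23.W1.Eis11

set_option autoImplicit false

/-!
# Bounded denominators of weight one forms with algebraic coefficients
-/

noncomputable section

open UpperHalfPlane hiding I
open Filter Function Complex Topology CongruenceSubgroup ModularForm
open scoped MatrixGroups Real ModularForm Manifold Polynomial

namespace Fermat.Agent.H23.W1

open Fermat.Agent.IntStr (QR)
open Fermat.Agent.Q (intL mem_intL bddL C_mem_intL C_mem_bddL intL_le_bddL mem_bddL_of_C_mul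
  mem_intL_of_integral coeff_C_mul')
open Fermat.Agent.H18J (fracL mem_fracL C_mem_fracL bigAlg mem_bigAlg expK expK_eq expK_mem_fracL
  exists_monic jF expK_jF qExpand_mem_intL_iff jqModC_mem_intL theta_C coeffMap_dSinv)
open Fermat.Agent.H02 (modAlg modAlg_mono)
open Fermat.Agent.H18 (theta theta_qExpand)
open Fermat.Agent.Igusa (IsExp dS dSinv dS_mul_dSinv)
open ModularCurve (coeffMap qExpand jqModC)

section Alg

variable {K : Type*} [Field K] {A : ValuationSubring K}

/-- **Integral closedness**, bounded version. -/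
theorem mem_bddL_of_isIntegral' [MulArchimedean A.ValueGroup]
    {z : LaurentSeries K}
    (hz : z ∈ fracL A) (hint : IsIntegral (bddL A) z) : z ∈ bddL A := by
  classical
  obtain ⟨p, hp, hpz⟩ := hint
  have hden : ∀ s : Finset ℕ, ∃ c : K, c ∈ A ∧ c ≠ 0 ∧ ∀ i ∈ s,
      HahnSeries.C c * (p.coeff i : LaurentSeries K) ∈ intL A := by
    intro s
    induction s using Finset.induction_on with
    | empty => exact ⟨1, one_mem A, one_ne_zero, by simp⟩
    | insert a s ha ih =>
      obtain ⟨c, hc, hc0, h⟩ := ih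
      obtain ⟨d, hd, hd0, h'⟩ := (p.coeff a).2
      refine ⟨c * d, mul_mem hc hd, mul_ne_zero hc0 hd0, fun i hi => ?_⟩
      rw [Finset.mem_insert] at hi
      rcases hi with rfl | hi
      · rw [map_mul, mul_assoc]
        exact mul_mem (C_mem_intL hc) h'
      · rw [mul_comm c d, map_mul, mul_assoc]
        exact mul_mem (C_mem_intL hd) (h i hi)
  obtain ⟨c, hc, hc0, h⟩ := hden (Finset.range (p.natDegree + 1))
  set n := p.natDegree with hn
  have hcz : IsIntegral (intL A) (HahnSeries.C c * z) := by
    have hco : ∀ i ∈ Finset.range n, HahnSeries.C (c ^ (n - i)) * (p.coeff i : LaurentSeries K)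
        ∈ intL A := by
      intro i hi
      rw [Finset.mem_range] at hi
      have hs : n - i = (n - i - 1) + 1 := by omega
      rw [hs, pow_succ, map_mul, mul_assoc]
      exact mul_mem (C_mem_intL (pow_mem hc _)) (h i (by rw [Finset.mem_range]; omega))
    let a : ℕ → intL A := fun i => if hi : i ∈ Finset.range n then ⟨_, hco i hi⟩ else 0
    refine ⟨Polynomial.X ^ n + ∑ i ∈ Finset.range n, Polynomial.C (a i) * Polynomial.X ^ i, ?_, ?_⟩
    · apply Polynomial.monic_X_pow_add
      refine (Polynomial.degree_sum_le _ _).trans_lt ?_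
      refine (Finset.sup_lt_iff (WithBot.bot_lt_coe n)).mpr ?_
      intro i hi
      exact (Polynomial.degree_C_mul_X_pow_le i (a i)).trans_lt
        (WithBot.coe_lt_coe.mpr (Finset.mem_range.mp hi))
    · rw [Polynomial.eval₂_add, Polynomial.eval₂_pow, Polynomial.eval₂_X,
        Polynomial.eval₂_finsetSum]
      have h1 : Polynomial.eval₂ (algebraMap (bddL A) (LaurentSeries K)) z p = 0 := hpz
      rw [Polynomial.eval₂_eq_sum_range, ← hn, Finset.sum_range_succ, hn, hp.coeff_natDegree,
        ← hn, map_one, one_mul] at h1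
      have h2 : (HahnSeries.C c * z) ^ n = HahnSeries.C (c ^ n) * z ^ n := by
        rw [mul_pow, map_pow]
      have h3 : ∑ i ∈ Finset.range n, Polynomial.eval₂ (algebraMap (intL A) (LaurentSeries K))
          (HahnSeries.C c * z) (Polynomial.C (a i) * Polynomial.X ^ i) =
          HahnSeries.C (c ^ n) *
            ∑ i ∈ Finset.range n, (algebraMap (bddL A) (LaurentSeries K)) (p.coeff i) * z ^ i := by
        rw [Finset.mul_sum]
        refine Finset.sum_congr rfl fun i hi => ?_
        rw [Polynomial.eval₂_mul, Polynomial.eval₂_C, Polynomial.eval₂_pow, Polynomial.eval₂_X]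
        have h4 : algebraMap (intL A) (LaurentSeries K) (a i) =
            HahnSeries.C (c ^ (n - i)) * (p.coeff i : LaurentSeries K) := by
          simp only [a, dif_pos hi]
          rfl
        have h5 : algebraMap (bddL A) (LaurentSeries K) (p.coeff i) = (p.coeff i : LaurentSeries K) :=
          rfl
        have h6 : c ^ n = c ^ (n - i) * c ^ i := by
          rw [← _root_.pow_add, Nat.sub_add_cancel (Finset.mem_range.mp hi).le]
        rw [h4, h5, mul_pow, ← map_pow, h6, map_mul]
        ring
      rw [h2, h3, ← mul_add, add_comm, h1, mul_zero]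
  have hczF : HahnSeries.C c * z ∈ fracL A := mul_mem (C_mem_fracL c) hz
  apply mem_bddL_of_C_mul hc0
  obtain ⟨U, hU, V, hV, hUV⟩ := mem_fracL.mp hczF
  by_cases hV0 : V = 0
  · rw [← hUV, hV0, div_zero]; exact zero_mem _
  exact mem_intL_of_integral hV0 hV (by rw [← hUV, mul_div_cancel₀ _ hV0]; exact hU) hcz

end Alg

section Main

variable {K : Type*} [Field K] [Algebra K ℂ] [IsAlgClosed K] {N : ℕ} [NeZero N]
  (A : ValuationSubring K)

theorem isIntegral_expK (f : bigAlg K N) : IsIntegral (bddL A) (expK K N f) := by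
  obtain ⟨P, hP, h⟩ := exists_monic f
  set ψ : K[X] →+* LaurentSeries K :=
    (expK K N).toRingHom.comp (Polynomial.aeval (jF K N)).toRingHom with hψ
  have hψm : ∀ p, ψ p ∈ bddL A := by
    intro p
    have h1 : ψ p = Polynomial.aeval (qExpand K N (jqModC K)) p := by
      show expK K N (Polynomial.aeval (jF K N) p) = _
      rw [← Polynomial.aeval_algHom_apply, expK_jF]
    rw [h1, Polynomial.aeval_eq_sum_range]
    refine sum_mem fun i _ => ?_
    rw [Algebra.smul_def, Q.algebraMap_eq_C]
    refine mul_mem (C_mem_bddL _) (pow_mem (intL_le_bddL ?_) _)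
    rw [qExpand_mem_intL_iff]
    exact jqModC_mem_intL
  refine ⟨P.map (ψ.codRestrict (bddL A) hψm), hP.map _, ?_⟩
  rw [Polynomial.eval₂_map]
  have h2 := Polynomial.hom_eval₂ P (Polynomial.aeval (jF K N)).toRingHom (expK K N).toRingHom f
  rw [h, map_zero] at h2
  exact h2.symm

theorem expK_mem_bddL [MulArchimedean A.ValueGroup] (f : bigAlg K N) :
    expK K N f ∈ bddL A :=
  mem_bddL_of_isIntegral' (expK_mem_fracL A f) (isIntegral_expK A f)

theorem Gamma_le_Gamma1 (N : ℕ) : CongruenceSubgroup.Gamma N ≤ Gamma1 N := by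
  intro γ hγ
  rw [Gamma_mem] at hγ
  rw [Gamma1_mem]
  exact ⟨hγ.1, hγ.2.2.2, hγ.2.2.1⟩

theorem ofPS_mem_intL {p : PowerSeries K} (h : ∀ n, PowerSeries.coeff n p ∈ A) :
    HahnSeries.ofPowerSeries ℤ K p ∈ intL A := by
  rw [mem_intL]
  intro n
  rcases lt_or_ge n 0 with hn | hn
  · rw [ModularCurve.ofPowerSeries_coeff_of_neg _ hn]
    exact zero_mem A
  · obtain ⟨k, rfl⟩ := Int.eq_ofNat_of_zero_le hn
    rw [HahnSeries.ofPowerSeries_apply_coeff]
    exact h k

theorem dS_mem_intL : dS K ∈ intL A := by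
  have h : coeffMap A.subtype (dS A) = dS K := by
    rw [dS, map_mul, ModularCurve.coeffMap_single, map_one, ModularCurve.coeffMap_ofPowerSeries, dS]
    congr 2
  exact ⟨dS A, h⟩

/-- **Bounded denominators**: weight one forms of level `Γ₁(N)` with coefficients in `K`. -/
theorem exists_denominator [MulArchimedean A.ValueGroup] (hN : 3 ≤ N) {f : ℍ → ℂ}
    (hf : IsG (Gamma1 N) 1 f) {a : ℕ → K}
    (ha : ∀ n, algebraMap K ℂ (a n) = PowerSeries.coeff n (qExpansion 1 f)) :
    ∃ c : K, c ≠ 0 ∧ ∀ n, c * a n ∈ A := by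
  have hfQ := hf.mem_QR (T_mem_Gamma1 N)
  have hE := isG_E11 N
  have hEQ := hE.mem_QR (T_mem_Gamma1 N)
  set g : PowerSeries K := PowerSeries.mk fun r => ((gco N 1 r : ℤ) : K) with hg
  set aS : PowerSeries K := PowerSeries.mk a with haS
  set F : LaurentSeries K := HahnSeries.ofPowerSeries ℤ K (aS * g) * dSinv K with hF
  have hθ : theta K F = HahnSeries.ofPowerSeries ℤ ℂ (qExpansion 1 f * qExpansion 1 (E11 N)) *
      dSinv ℂ ^ 1 := by
    rw [hF]
    show coeffMap _ _ = _
    rw [map_mul, coeffMap_dSinv, ModularCurve.coeffMap_ofPowerSeries, pow_one, map_mul]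
    congr 3
    · ext n
      rw [PowerSeries.coeff_map, haS, PowerSeries.coeff_mk]
      exact ha n
    · ext n
      rw [PowerSeries.coeff_map, hg, PowerSeries.coeff_mk, qExp_E11 N hN, PowerSeries.coeff_mk]
      simp
  have hx : quo 1 f (E11 N) ∈ modAlg (CongruenceSubgroup.Gamma N) :=
    modAlg_mono (Gamma_le_Gamma1 N) (quo_mem (by norm_num) hf hE)
  have hexp : IsExp N (quo 1 f (E11 N)) (theta K (qExpand K N F)) := by
    rw [theta_qExpand, hθ]
    exact (Igusa.isExp_qExpand_iff N).mpr (isExp_quo hfQ hEQ)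
  set x : bigAlg K N := ⟨_, mem_bigAlg hx hexp⟩ with hxdef
  have h1 : expK K N x = qExpand K N F := expK_eq hexp
  obtain ⟨c, hcA, hc0, hc⟩ := expK_mem_bddL A x
  rw [h1] at hc
  have h2 : HahnSeries.C c * F ∈ intL A := by
    rw [← qExpand_mem_intL_iff N, map_mul]
    have : qExpand K N (HahnSeries.C c) = HahnSeries.C c := by
      rw [← Q.algebraMap_eq_C]
      exact H18J.qExpand_algebraMap' K N c
    rw [this]
    exact hc
  have h3 : HahnSeries.C c * HahnSeries.ofPowerSeries ℤ K (aS * g) ∈ intL A := by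
    have h4 := mul_mem h2 (dS_mem_intL A)
    have h5 : HahnSeries.C c * F * dS K =
        HahnSeries.C c * HahnSeries.ofPowerSeries ℤ K (aS * g) := by
      rw [hF]
      calc _ = HahnSeries.C c * HahnSeries.ofPowerSeries ℤ K (aS * g) * (dS K * dSinv K) := by ring
        _ = _ := by rw [dS_mul_dSinv, mul_one]
    rwa [h5] at h4
  have h6 : ∀ n, c * PowerSeries.coeff n (aS * g) ∈ A := by
    intro n
    have h7 := (mem_intL.mp h3) (n : ℤ)
    rwa [coeff_C_mul', HahnSeries.ofPowerSeries_apply_coeff] at h7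
  refine ⟨c, hc0, fun n => ?_⟩
  induction n using Nat.strong_induction_on with
  | _ n ih =>
    have h7 := h6 (n + 1)
    rw [PowerSeries.coeff_mul, Finset.Nat.sum_antidiagonal_eq_sum_range_succ
      (fun i j => PowerSeries.coeff i aS * PowerSeries.coeff j g),
      Finset.sum_range_succ, Finset.sum_range_succ, Nat.sub_self] at h7
    have h8 : PowerSeries.coeff 0 g = 0 := by
      rw [hg, PowerSeries.coeff_mk, gco_zero]
      simp
    have h9 : PowerSeries.coeff (n + 1 - n) g = 1 := by
      rw [Nat.add_sub_cancel_left, hg, PowerSeries.coeff_mk, gco_one N hN]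
      simp
    rw [h8, h9, mul_zero, add_zero, mul_one, mul_add] at h7
    have h10 : c * ∑ i ∈ Finset.range n, PowerSeries.coeff i aS *
        PowerSeries.coeff (n + 1 - i) g ∈ A := by
      rw [Finset.mul_sum]
      refine sum_mem fun i hi => ?_
      rw [← mul_assoc, haS, PowerSeries.coeff_mk]
      refine mul_mem (ih i (Finset.mem_range.mp hi)) ?_
      rw [hg, PowerSeries.coeff_mk]
      exact intCast_mem A _
    have h11 : c * PowerSeries.coeff n aS = c * ∑ i ∈ Finset.range n, PowerSeries.coeff i aS *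
        PowerSeries.coeff (n + 1 - i) g + c * PowerSeries.coeff n aS -
        c * ∑ i ∈ Finset.range n, PowerSeries.coeff i aS *
        PowerSeries.coeff (n + 1 - i) g := by ring
    have h12 : c * PowerSeries.coeff n aS ∈ A := by
      rw [h11]
      exact sub_mem h7 h10
    rwa [haS, PowerSeries.coeff_mk] at h12

end Main

end Fermat.Agent.H23.W1
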