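import Fermat.Agent.H23.W1.Depl
import Fermat.Agent.H23.W1.Conj
import Fermat.Agent.H23.W1.Eis11

set_option autoImplicit false

/-!
# Conjugates of weight one cusp forms for `Γ₁(N)`
-/

noncomputable section

open UpperHalfPlane hiding I
open Filter Function Complex Matrix Topology CongruenceSubgroup ModularForm
open scoped MatrixGroups Real ModularForm Manifold

namespace Fermat.Agent.H23.W1

open Fermat.Agent.IntStr (QR eq_of_qExpansion_eq IsCuspidal sig coeff_sig)
open Fermat.Agent.H22 (GamH GamH_bot)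
open ModularFormClass (qCoeff)

variable {N : ℕ} [NeZero N]

/-- weight one forms vanish for small levels -/
theorem eq_zero_of_lt_three (hN : N < 3) {f : ℍ → ℂ} (hf : IsG (Gamma1 N) 1 f) : f = 0 := by
  have h1 : (-1 : SL(2, ℤ)) ∈ Gamma1 N := by
    rw [Gamma1_mem]
    have hN0 := NeZero.pos N
    have : N = 1 ∨ N = 2 := by omega
    rcases this with rfl | rfl
    · refine ⟨Subsingleton.elim _ _, Subsingleton.elim _ _, Subsingleton.elim _ _⟩
    · simp
  ext z
  have h2 := hf.smul_eq h1 z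
  have h3 : ((-1 : SL(2, ℤ)) • z) = z := by
    rw [ModularGroup.SL_neg_smul, one_smul]
  have h4 : denom ((-1 : SL(2, ℤ)) : GL (Fin 2) ℝ) z = -1 := by
    rw [ModularGroup.denom_apply]
    simp
  rw [h3, h4, zpow_one] at h2
  have h5 : (2 : ℂ) * f z = 0 := by linear_combination h2
  simpa using h5

/-- **Conjugates of weight one cusp forms.** -/
theorem exists_conj_cusp (σ : ℂ ≃+* ℂ) (f : CuspForm (Gamma1 N) 1) :
    ∃ g : CuspForm (Gamma1 N) 1, ∀ n, qCoeff g n = σ (qCoeff f n) := by
  rcases Nat.lt_or_ge N 3 with hN | hN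
  · have h0 := eq_zero_of_lt_three hN (isG_coe f)
    refine ⟨f, fun n => ?_⟩
    simp only [qCoeff]
    rw [h0, qExpansion_zero, map_zero, map_zero]
  · have hE : IsG (GamH N ⊥) 11 (E11 N) := by rw [GamH_bot]; exact isG_E11 N
    have hf : IsG (GamH N ⊥) 1 f := by rw [GamH_bot]; exact isG_coe f
    obtain ⟨g, hg, hgq, hgc⟩ := exists_conj_of_aux (k := 1) (w := 11) (m := 1) (by norm_num) σ hE
      (E11_ne_zero N hN) (sig_E11 N hN σ) hf
    rw [GamH_bot] at hg
    have hmem : g ∈ SG (Gamma1 N) 1 := mem_SG.mpr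
      ⟨hg, hgc fun γ => CuspFormClass.zero_at_infty_slash f γ⟩
    refine ⟨cfm hmem, fun n => ?_⟩
    show (qExpansion 1 g).coeff n = _
    rw [hgq, coeff_sig]
    rfl

end Fermat.Agent.H23.W1
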