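import Fermat.Agent.H23.W1.Neb2

set_option autoImplicit false

/-!
# Removing the coefficients not prime to the level
-/

noncomputable section

open UpperHalfPlane hiding I
open Filter Function Complex Matrix Topology CongruenceSubgroup ModularForm
open scoped MatrixGroups Real ModularForm Manifold

namespace Fermat.Agent.H23.W1

open Fermat.Agent.IntStr (QR eq_of_qExpansion_eq qExp_add qExp_smul slash_eq_iff IsCuspidal
  qExp_unique)
open ModularFormClass (qCoeff)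

/-! ### Bundling -/

section Bundle

variable {Γ : Subgroup SL(2, ℤ)} {k : ℤ} {f g : ℍ → ℂ}

theorem isG_zero : IsG Γ k 0 where
  slash γ _ := by rw [SL_slash, SlashAction.zero_slash]
  holo := mdifferentiable_const
  bdd γ := by
    rw [SL_slash, SlashAction.zero_slash]
    exact Filter.const_boundedAtFilter _ (0 : ℂ)

theorem IsG.add (hf : IsG Γ k f) (hg : IsG Γ k g) : IsG Γ k (f + g) where
  slash γ hγ := by rw [SlashAction.add_slash, hf.slash γ hγ, hg.slash γ hγ]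
  holo := hf.holo.add hg.holo
  bdd γ := by
    rw [SlashAction.add_slash]
    exact (hf.bdd γ).add (hg.bdd γ)

theorem IsG.smul (hf : IsG Γ k f) (c : ℂ) : IsG Γ k (c • f) where
  slash γ hγ := by rw [SL_smul_slash, hf.slash γ hγ]
  holo := hf.holo.const_smul c
  bdd γ := by
    rw [SL_smul_slash]
    exact (hf.bdd γ).const_smul_left c

theorem cusp_zero : IsCuspidal k (0 : ℍ → ℂ) := fun γ => by
  rw [SL_slash, SlashAction.zero_slash]
  exact tendsto_const_nhds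

theorem cusp_add (hf : IsCuspidal k f) (hg : IsCuspidal k g) : IsCuspidal k (f + g) := fun γ => by
  rw [SlashAction.add_slash]
  exact (hf γ).add (hg γ)

theorem cusp_smul (hf : IsCuspidal k f) (c : ℂ) : IsCuspidal k (c • f) := fun γ => by
  rw [SL_smul_slash]
  exact (hf γ).smul c

variable (Γ k) in
/-- the space of cusp forms as functions -/
def SG : Submodule ℂ (ℍ → ℂ) where
  carrier := {f | IsG Γ k f ∧ IsCuspidal k f}
  add_mem' hf hg := ⟨hf.1.add hg.1, cusp_add hf.2 hg.2⟩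
  zero_mem' := ⟨isG_zero, cusp_zero⟩
  smul_mem' c _ hf := ⟨hf.1.smul c, cusp_smul hf.2 c⟩

theorem mem_SG {f : ℍ → ℂ} : f ∈ SG Γ k ↔ IsG Γ k f ∧ IsCuspidal k f := Iff.rfl

variable {N : ℕ} [NeZero N]

/-- bundling -/
def cfm (h : f ∈ SG (Gamma1 N) k) : CuspForm (Gamma1 N) k where
  toFun := f
  slash_action_eq' := by
    rintro _ ⟨γ, hγ, rfl⟩
    exact h.1.slash γ hγ
  holo' := h.1.holo
  zero_at_cusps' {c} hc := by
    rw [Subgroup.IsArithmetic.isCusp_iff_isCusp_SL2Z] at hc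
    rw [OnePoint.isZeroAt_iff_forall_SL2Z hc]
    exact fun γ _ ↦ h.2 γ

@[simp] theorem coe_cfm (h : f ∈ SG (Gamma1 N) k) : ⇑(cfm h) = f := rfl

omit [NeZero N] in
theorem isG_coe (f : CuspForm (Gamma1 N) k) [NeZero N] : IsG (Gamma1 N) k f where
  slash γ hγ := SlashInvariantFormClass.slash_action_eq f _ ⟨γ, hγ, rfl⟩
  holo := CuspFormClass.holo f
  bdd γ := (CuspFormClass.zero_at_infty_slash f γ).isBoundedAtImInfty

theorem coe_mem_SG (f : CuspForm (Gamma1 N) k) : ⇑f ∈ SG (Gamma1 N) k :=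
  ⟨isG_coe f, fun γ => CuspFormClass.zero_at_infty_slash f γ⟩

end Bundle

/-! ### Shifts -/

section Shift

variable {N : ℕ} [NeZero N] {k : ℤ}

/-- the rational matrix `(1 j/N; 0 1)` -/
def shQ (N : ℕ) (j : ℤ) : GL (Fin 2) ℚ :=
  Matrix.GeneralLinearGroup.mkOfDetNeZero !![1, (j : ℚ) / N; 0, 1] (by simp)

/-- the matrix `(1 j/N; 0 1)` -/
def shG (N : ℕ) (j : ℤ) : GL (Fin 2) ℝ := Matrix.GeneralLinearGroup.map (Rat.castHom ℝ) (shQ N j)

omit [NeZero N] in
theorem val_shG (j : ℤ) : ((shG N j : GL (Fin 2) ℝ) : Matrix (Fin 2) (Fin 2) ℝ) =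
    !![1, (j : ℝ) / N; 0, 1] := by
  ext a b
  fin_cases a <;> fin_cases b <;>
    simp [shG, shQ, Matrix.GeneralLinearGroup.mkOfDetNeZero]

omit [NeZero N] in
theorem slash_shG_apply (f : ℍ → ℂ) (j : ℤ) (z : ℍ) :
    (f ∣[k] shG N j) z = f (((j : ℝ) / N : ℝ) +ᵥ z) := by
  have hdet : ((shG N j).det : ℝ) = 1 := by
    rw [Matrix.GeneralLinearGroup.val_det_apply, val_shG, Matrix.det_fin_two_of]
    ring
  have hden : denom (shG N j) z = 1 := by
    simp [denom, val_shG]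
  have hσ : UpperHalfPlane.σ (shG N j) = .refl ℝ ℂ := by
    rw [UpperHalfPlane.σ, if_pos (by rw [hdet]; exact one_pos)]
  have hz : shG N j • z = ((j : ℝ) / N : ℝ) +ᵥ z := by
    ext
    rw [UpperHalfPlane.coe_smul_of_det_pos (by rw [hdet]; exact one_pos), hden]
    simp [num, val_shG, add_comm]
  rw [ModularForm.slash_apply, hσ, hdet, hden, hz]
  simp

/-- the conjugate matrix -/
theorem exists_conj_sh (j : ℤ) {γ : SL(2, ℤ)} (hγ : γ ∈ Gamma1 (N ^ 2)) :
    ∃ γ' ∈ Gamma1 N, shG N j * (γ : GL (Fin 2) ℝ) = (γ' : GL (Fin 2) ℝ) * shG N j := by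
  rw [Gamma1_mem] at hγ
  obtain ⟨h1, h2, h3⟩ := hγ
  have e1 : ((N ^ 2 : ℕ) : ℤ) ∣ γ 0 0 - 1 := by
    rw [← ZMod.intCast_zmod_eq_zero_iff_dvd]
    push_cast
    rw [h1, sub_self]
  have e2 : ((N ^ 2 : ℕ) : ℤ) ∣ γ 1 1 - 1 := by
    rw [← ZMod.intCast_zmod_eq_zero_iff_dvd]
    push_cast
    rw [h2, sub_self]
  have e3 : ((N ^ 2 : ℕ) : ℤ) ∣ γ 1 0 := (ZMod.intCast_zmod_eq_zero_iff_dvd _ _).mp h3
  obtain ⟨u, hu⟩ := e1
  obtain ⟨v, hv⟩ := e2
  obtain ⟨c, hc⟩ := e3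
  push_cast at hu hv hc
  have hd := γ.det_coe
  rw [Matrix.det_fin_two] at hd
  have hNR : (N : ℝ) ≠ 0 := by exact_mod_cast NeZero.ne N
  let γ' : SL(2, ℤ) := ⟨!![γ 0 0 + N * c * j, γ 0 1 + N * (v - u) * j - c * j ^ 2; γ 1 0,
    γ 1 1 - N * c * j], by
    rw [Matrix.det_fin_two_of]
    rw [hc] at hd ⊢
    have h4 : γ 1 1 - γ 0 0 = N ^ 2 * (v - u) := by linear_combination hv - hu
    linear_combination hd + (N * c * j) * h4⟩
  refine ⟨γ', ?_, ?_⟩
  · rw [Gamma1_mem]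
    refine ⟨?_, ?_, ?_⟩
    · show ((γ 0 0 + N * c * j : ℤ) : ZMod N) = 1
      have : γ 0 0 = 1 + N ^ 2 * u := by linear_combination hu
      rw [this]
      push_cast
      rw [ZMod.natCast_self]
      ring
    · show ((γ 1 1 - N * c * j : ℤ) : ZMod N) = 1
      have : γ 1 1 = 1 + N ^ 2 * v := by linear_combination hv
      rw [this]
      push_cast
      rw [ZMod.natCast_self]
      ring
    · show ((γ 1 0 : ℤ) : ZMod N) = 0
      rw [hc]
      push_cast
      rw [ZMod.natCast_self]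
      ring
  · apply Units.ext
    have f0 : γ' 0 0 = γ 0 0 + N * c * j := rfl
    have f1 : γ' 0 1 = γ 0 1 + N * (v - u) * j - c * j ^ 2 := rfl
    have f2 : γ' 1 0 = γ 1 0 := rfl
    have f3 : γ' 1 1 = γ 1 1 - N * c * j := rfl
    have g1 : ((γ 1 0 : ℤ) : ℝ) = (N : ℝ) ^ 2 * c := by rw [hc]; push_cast; ring
    have g2 : ((γ 1 1 : ℤ) : ℝ) = 1 + (N : ℝ) ^ 2 * v := by
      have : γ 1 1 = 1 + N ^ 2 * v := by linear_combination hv
      rw [this]; push_cast; ring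
    have g3 : ((γ 0 0 : ℤ) : ℝ) = 1 + (N : ℝ) ^ 2 * u := by
      have : γ 0 0 = 1 + N ^ 2 * u := by linear_combination hu
      rw [this]; push_cast; ring
    rw [Units.val_mul, Units.val_mul, val_shG, val_coe_GL, val_coe_GL, f0, f1, f2, f3,
      Matrix.mul_fin_two, Matrix.mul_fin_two]
    push_cast
    rw [g1, g2, g3]
    ext a b
    fin_cases a <;> fin_cases b
    · simp
      field_simp
    · simp
      field_simp
      ring
    · simp
    · simp
      field_simp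
      ring

theorem shift_mem (f : CuspForm (Gamma1 N) k) (j : ℤ) :
    (⇑f ∣[k] shG N j) ∈ SG (Gamma1 (N ^ 2)) k := by
  have hz : ∀ γ : SL(2, ℤ), IsZeroAtImInfty ((⇑f ∣[k] shG N j) ∣[k] γ) := by
    intro γ
    have hc : IsCusp (OnePoint.infty : OnePoint ℝ)
        ((Gamma1 N : Subgroup SL(2, ℤ)).map (Matrix.SpecialLinearGroup.mapGL ℝ)) := by
      rw [Subgroup.IsArithmetic.isCusp_iff_isCusp_SL2Z, isCusp_SL2Z_iff]
      exact ⟨OnePoint.infty, rfl⟩
    have hc2 : IsCusp ((γ : GL (Fin 2) ℝ) • (OnePoint.infty : OnePoint ℝ))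
        ((Gamma1 N : Subgroup SL(2, ℤ)).map (Matrix.SpecialLinearGroup.mapGL ℝ)) := by
      rw [Subgroup.IsArithmetic.isCusp_iff_isCusp_SL2Z] at hc ⊢
      exact hc.smul_of_mem ⟨γ, rfl⟩
    have hc3 : IsCusp (shG N j • (γ : GL (Fin 2) ℝ) • (OnePoint.infty : OnePoint ℝ))
        ((Gamma1 N : Subgroup SL(2, ℤ)).map (Matrix.SpecialLinearGroup.mapGL ℝ)) := by
      rw [Subgroup.IsArithmetic.isCusp_iff_isCusp_SL2Z, isCusp_SL2Z_iff] at hc2 ⊢
      obtain ⟨c, hc⟩ := hc2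
      refine ⟨shQ N j • c, ?_⟩
      rw [← hc, shG, ← Rat.coe_castHom, OnePoint.map_smul]
    have h1 := OnePoint.IsZeroAt.smul_iff.mp (CuspFormClass.zero_at_cusps f hc3)
    have h2 := OnePoint.IsZeroAt.smul_iff.mp h1
    exact OnePoint.isZeroAt_infty_iff.mp h2
  refine ⟨⟨fun γ hγ => ?_, ?_, fun γ => (hz γ).isBoundedAtImInfty⟩, hz⟩
  · obtain ⟨γ', hγ', h⟩ := exists_conj_sh j hγ
    rw [SL_slash, ← SlashAction.slash_mul, h, SlashAction.slash_mul, ← SL_slash,
      (isG_coe f).slash _ hγ']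
  · exact (CuspFormClass.holo f).slash k _

instance neZero_sq : NeZero (N ^ 2) := ⟨pow_ne_zero _ (NeZero.ne N)⟩

omit [NeZero N] in
theorem T_mem_Gamma1' (N : ℕ) : ModularGroup.T ∈ Gamma1 N := by
  rw [Gamma1_mem]
  simp [ModularGroup.T]

theorem shift_mem_QR (f : CuspForm (Gamma1 N) k) (j : ℤ) : (⇑f ∣[k] shG N j) ∈ QR 1 :=
  (shift_mem f j).1.mem_QR (T_mem_Gamma1' _)

theorem qCoeff_shift (f : CuspForm (Gamma1 N) k) (j : ℤ) (n : ℕ) :
    qCoeff (⇑f ∣[k] shG N j) n = cexp (2 * π * Complex.I * j * n / N) * qCoeff f n := by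
  have hQ := shift_mem_QR f j
  have hf := (isG_coe f).mem_QR (T_mem_Gamma1' N)
  refine qExp_unique (c := fun n => cexp (2 * π * Complex.I * j * n / N) * qCoeff f n)
    one_pos hQ (fun z => ?_) n
  rw [slash_shG_apply]
  have h2 := (((j : ℝ) / N : ℝ) +ᵥ z).hasSum_qExpansion one_pos hf.1 hf.2.1 hf.2.2
  convert h2 using 2 with m
  rw [UpperHalfPlane.coe_vadd, smul_eq_mul, smul_eq_mul, qCoeff, mul_comm (cexp _), mul_assoc]
  congr 1
  rw [Function.Periodic.qParam, Function.Periodic.qParam, ← Complex.exp_nat_mul,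
    ← Complex.exp_nat_mul, ← Complex.exp_add]
  congr 1
  push_cast
  ring

/-- **Depletion**: a form with the coefficients prime to the level. -/
theorem exists_depletion (f : CuspForm (Gamma1 N) k) : ∃ f' : CuspForm (Gamma1 (N ^ 2)) k,
    ∀ n : ℕ, qCoeff f' n = if n.Coprime N then qCoeff f n else 0 := by
  classical
  obtain ⟨Φ, hΦ⟩ := (ZMod.dft (N := N) (E := ℂ)).surjective
    (fun x : ZMod N => if IsUnit x then (1 : ℂ) else 0)
  have hmem : (∑ j : ZMod N, Φ j • (⇑f ∣[k] shG N (-(j.val : ℤ)))) ∈ SG (Gamma1 (N ^ 2)) k :=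
    Submodule.sum_mem _ fun j _ => Submodule.smul_mem _ _ (shift_mem f _)
  refine ⟨cfm hmem, fun n => ?_⟩
  rw [coe_cfm]
  have hsum : ∀ s : Finset (ZMod N), qCoeff (∑ j ∈ s, Φ j • (⇑f ∣[k] shG N (-(j.val : ℤ)))) n =
      ∑ j ∈ s, Φ j * (cexp (2 * π * Complex.I * ((-(j.val : ℤ) : ℤ) : ℂ) * n / N) * qCoeff f n) := by
    intro s
    induction s using Finset.induction_on with
    | empty => simp [qCoeff, qExpansion_zero]
    | insert a s ha ih =>
      rw [Finset.sum_insert ha, Finset.sum_insert ha, qCoeff_add, ih,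
        qCoeff_smul (shift_mem_QR f _), qCoeff_shift]
      · exact (QR 1).smul_mem (shift_mem_QR f _) _
      · exact (QR 1).sum_mem fun j _ => (QR 1).smul_mem (shift_mem_QR f _) _
  rw [hsum]
  have h1 := congrFun hΦ (n : ZMod N)
  rw [ZMod.dft_apply] at h1
  have h2 : ∀ j : ZMod N, ZMod.stdAddChar (-(j * (n : ZMod N))) =
      cexp (2 * π * Complex.I * ((-(j.val : ℤ) : ℤ) : ℂ) * n / N) := by
    intro j
    have h3 : -(j * (n : ZMod N)) = (((-(j.val : ℤ)) * n : ℤ) : ZMod N) := by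
      push_cast
      rw [ZMod.natCast_zmod_val]
      ring
    rw [h3, ZMod.stdAddChar_coe]
    congr 1
    push_cast
    ring
  have h4 : ∑ j : ZMod N, Φ j * (cexp (2 * π * Complex.I * ((-(j.val : ℤ) : ℤ) : ℂ) * n / N) *
      qCoeff f n) = (∑ j : ZMod N, ZMod.stdAddChar (-(j * (n : ZMod N))) • Φ j) * qCoeff f n := by
    rw [Finset.sum_mul]
    refine Finset.sum_congr rfl fun j _ => ?_
    rw [h2 j, smul_eq_mul]
    ring
  rw [h4, h1]
  simp only [ZMod.isUnit_iff_coprime]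
  split_ifs <;> simp

end Shift

end Fermat.Agent.H23.W1
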