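import Mathlib

set_option autoImplicit false

/-!
# Normalised eigensequences and their linear independence
-/

namespace Fermat.Agent.H23.W1

/-- normalised eigensequences with nebentypus `ψ` -/
structure IsEig (N : ℕ) (ψ : ZMod N → ℂ) (b : ℕ → ℂ) : Prop where
  zero : b 0 = 0
  one : b 1 = 1
  supp : ∀ n : ℕ, ¬ n.Coprime N → b n = 0
  rel : ∀ p : ℕ, p.Prime → ¬ p ∣ N → ∀ n : ℕ,
    b (p * n) + ψ (p : ZMod N) * (if p ∣ n then b (n / p) else 0) = b p * b n

variable {N : ℕ} {ψ : ZMod N → ℂ}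

/-- an eigensequence is determined by its eigenvalues -/
theorem IsEig.ext {b b' : ℕ → ℂ} (hb : IsEig N ψ b) (hb' : IsEig N ψ b')
    (h : ∀ p : ℕ, p.Prime → ¬ p ∣ N → b p = b' p) : b = b' := by
  ext n
  induction n using Nat.strong_induction_on with
  | _ n ih =>
    rcases Nat.eq_zero_or_pos n with rfl | hn
    · rw [hb.zero, hb'.zero]
    rcases Nat.eq_or_lt_of_le hn with h1 | h1
    · rw [← h1]
      show b 1 = b' 1
      rw [hb.one, hb'.one]
    · have hn1 : n ≠ 1 := by omega
      have hp := Nat.minFac_prime hn1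
      obtain ⟨m, hm⟩ := Nat.minFac_dvd n
      set p := n.minFac with hpdef
      have hm0 : 0 < m := by
        rcases Nat.eq_zero_or_pos m with h0 | h0
        · rw [h0, mul_zero] at hm; omega
        · exact h0
      have hmn : m < n := by
        rw [hm]
        exact (Nat.lt_mul_iff_one_lt_left hm0).mpr hp.one_lt
      by_cases hpN : p ∣ N
      · have hnc : ¬ n.Coprime N := by
          intro hc
          have h2 : p ∣ n.gcd N := Nat.dvd_gcd ⟨m, hm⟩ hpN
          rw [hc] at h2
          exact hp.one_lt.ne' (Nat.dvd_one.mp h2)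
        rw [hb.supp n hnc, hb'.supp n hnc]
      · have e1 := hb.rel p hp hpN m
        have e2 := hb'.rel p hp hpN m
        have e3 := h p hp hpN
        have e4 := ih m hmn
        have e5 : (if p ∣ m then b (m / p) else 0) = if p ∣ m then b' (m / p) else 0 := by
          split_ifs
          · exact ih _ (lt_of_le_of_lt (Nat.div_le_self m p) hmn)
          · rfl
        have e6 : ∀ c : ℕ → ℂ, c n = c (p * m) := fun c => by rw [← hm]
        rw [e6 b, e6 b']
        rw [e5, e3, e4] at e1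
        exact add_right_cancel (e1.trans e2.symm)

/-- the Hecke operators on sequences -/
def Tsq (ψ : ZMod N → ℂ) (p : ℕ) : (ℕ → ℂ) →ₗ[ℂ] (ℕ → ℂ) where
  toFun b n := b (p * n) + ψ (p : ZMod N) * (if p ∣ n then b (n / p) else 0)
  map_add' b c := by
    ext n
    simp only [Pi.add_apply]
    split_ifs <;> ring
  map_smul' a b := by
    ext n
    simp only [Pi.smul_apply, smul_eq_mul, RingHom.id_apply]
    split_ifs <;> ring

variable (N) in
/-- primes not dividing the level -/
abbrev Pr : Type := {p : ℕ // p.Prime ∧ ¬ p ∣ N}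

/-- words in the Hecke operators -/
def Tw (ψ : ZMod N → ℂ) : FreeMonoid (Pr N) →* Module.End ℂ (ℕ → ℂ) :=
  FreeMonoid.lift fun p => Tsq ψ (p : ℕ)

/-- words in the eigenvalues -/
def chiw (N : ℕ) (b : ℕ → ℂ) : FreeMonoid (Pr N) →* ℂ := FreeMonoid.lift fun p => b (p : ℕ)

theorem Tw_apply {b : ℕ → ℂ} (hb : IsEig N ψ b) (w : FreeMonoid (Pr N)) :
    Tw ψ w b = chiw N b w • b := by
  induction w using FreeMonoid.inductionOn' with
  | one => simp
  | of_mul p w ih =>
    rw [map_mul, map_mul, Module.End.mul_apply, ih, map_smul]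
    have h1 : Tw ψ (FreeMonoid.of p) b = b (p : ℕ) • b := by
      rw [Tw, FreeMonoid.lift_eval_of]
      ext n
      exact hb.rel p p.2.1 p.2.2 n
    rw [h1, smul_smul, chiw, FreeMonoid.lift_eval_of, mul_comm]

/-- the sequences of values -/
def Ev (ψ : ZMod N → ℂ) : (ℕ → ℂ) →ₗ[ℂ] (FreeMonoid (Pr N) → ℂ) where
  toFun b w := (Tw ψ w b) 1
  map_add' b c := by
    ext w
    rw [map_add]
    rfl
  map_smul' a b := by
    ext w
    rw [map_smul]
    rfl

theorem Ev_apply {b : ℕ → ℂ} (hb : IsEig N ψ b) : Ev ψ b = ⇑(chiw N b) := by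
  ext w
  show (Tw ψ w b) 1 = _
  rw [Tw_apply hb, Pi.smul_apply, hb.one, smul_eq_mul, mul_one]

/-- **Eigensequences with the same nebentypus are linearly independent.** -/
theorem linearIndependent_eig (ψ : ZMod N → ℂ) :
    LinearIndependent ℂ (fun b : {b : ℕ → ℂ // IsEig N ψ b} => (b : ℕ → ℂ)) := by
  have h1 := linearIndependent_monoidHom (FreeMonoid (Pr N)) ℂ
  have h2 : LinearIndependent ℂ (fun b : {b : ℕ → ℂ // IsEig N ψ b} => ⇑(chiw N (b : ℕ → ℂ))) := by
    refine h1.comp (fun b : {b : ℕ → ℂ // IsEig N ψ b} => chiw N (b : ℕ → ℂ)) ?_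
    intro b b' h
    apply Subtype.ext
    refine b.2.ext b'.2 fun p hp hpN => ?_
    have := DFunLike.congr_fun h (FreeMonoid.of (⟨p, hp, hpN⟩ : Pr N))
    simpa [chiw] using this
  apply LinearIndependent.of_comp (Ev ψ)
  convert h2 using 1
  ext b : 1
  exact Ev_apply b.2

theorem finite_eig (ψ : ZMod N → ℂ) (V : Submodule ℂ (ℕ → ℂ)) [FiniteDimensional ℂ V] :
    {b | IsEig N ψ b ∧ b ∈ V}.Finite := by
  have h1 : LinearIndependent ℂ (fun b : {b | IsEig N ψ b ∧ b ∈ V} => (b : ℕ → ℂ)) := by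
    refine (linearIndependent_eig ψ).comp (fun b : {b | IsEig N ψ b ∧ b ∈ V} =>
      (⟨b.1, b.2.1⟩ : {b : ℕ → ℂ // IsEig N ψ b})) ?_
    intro b b' h
    exact Subtype.ext (Subtype.mk.inj h)
  have h2 : LinearIndependent ℂ (fun b : {b | IsEig N ψ b ∧ b ∈ V} => (⟨b.1, b.2.2⟩ : V)) := by
    apply LinearIndependent.of_comp V.subtype
    exact h1
  have h3 : Finite {b | IsEig N ψ b ∧ b ∈ V} := h2.finite
  exact Set.toFinite _

end Fermat.Agent.H23.W1
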