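import Fermat.Agent.H23.W1.ConjC
import Fermat.Agent.H23.W1.EigSeq
import Fermat.Agent.H23.W1.NumF
import Fermat.Prelude.Thm_ModularForm_sturm_bound_of_isArithmetic

set_option autoImplicit false

/-!
# The number field of a weight one eigenform
-/

noncomputable section

open UpperHalfPlane hiding I
open Filter Function Complex Matrix Topology CongruenceSubgroup ModularForm
open scoped MatrixGroups Real ModularForm Manifold

namespace Fermat.Agent.H23.W1

open Fermat.Agent.IntStr (QR eq_of_qExpansion_eq qExp_add qExp_smul IsCuspidal)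
open ModularFormClass (qCoeff)

variable {N : ℕ} [NeZero N] {k : ℤ}

/-- bundling as a modular form -/
def mfm {f : ℍ → ℂ} (h : IsG (Gamma1 N) k f) : ModularForm (Gamma1 N) k where
  toFun := f
  slash_action_eq' := by
    rintro _ ⟨γ, hγ, rfl⟩
    exact h.slash γ hγ
  holo' := h.holo
  bdd_at_cusps' {c} hc := by
    rw [Subgroup.IsArithmetic.isCusp_iff_isCusp_SL2Z] at hc
    rw [OnePoint.isBoundedAt_iff_forall_SL2Z hc]
    exact fun γ _ ↦ h.bdd γ

theorem coe_mfm {f : ℍ → ℂ} (h : IsG (Gamma1 N) k f) : ⇑(mfm h) = f := rfl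

variable (N k) in
/-- the Sturm bound -/
def stB : ℕ := (k * ((Gamma1 N).map (Matrix.SpecialLinearGroup.mapGL ℝ)).relIndex
  𝒮ℒ).toNat / 12

theorem eq_zero_of_coeff {f : ℍ → ℂ} (h : IsG (Gamma1 N) k f)
    (h0 : ∀ n ≤ stB N k, (qExpansion 1 f).coeff n = 0) : f = 0 := by
  have h1 : (1 : ℝ) ∈ ((Gamma1 N).map (Matrix.SpecialLinearGroup.mapGL ℝ)).strictPeriods := by
    simp [CongruenceSubgroup.strictPeriods_Gamma1]
  have h2 : ((stB N k : ℕ) : ℕ∞) < (qExpansion 1 (mfm h)).order := by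
    apply lt_of_not_ge
    intro hle
    have hne : qExpansion 1 (mfm h) ≠ 0 := by
      intro h3
      rw [h3, PowerSeries.order_zero] at hle
      simp at hle
    have h4 := PowerSeries.coeff_order hne
    apply h4
    refine h0 _ ?_
    have h5 : ((qExpansion 1 (mfm h)).order.toNat : ℕ∞) ≤ (stB N k : ℕ∞) := by
      rw [ENat.coe_toNat (by
        intro htop
        rw [htop] at hle
        simp at hle)]
      exact hle
    exact_mod_cast h5
  have := ModularForm.sturm_bound_of_isArithmetic h1 h2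
  have := congrArg (fun g : ModularForm (Gamma1 N) k => (g : ℍ → ℂ)) this
  simpa [coe_mfm] using this

theorem SG_mem_QR {f : ℍ → ℂ} (h : f ∈ SG (Gamma1 N) k) : f ∈ QR 1 :=
  h.1.mem_QR (T_mem_Gamma1' N)

variable (N k) in
/-- the coefficient map -/
def coefL : SG (Gamma1 N) k →ₗ[ℂ] (ℕ → ℂ) where
  toFun f n := (qExpansion 1 (f : ℍ → ℂ)).coeff n
  map_add' f g := by
    ext n
    rw [Submodule.coe_add, qExp_add (SG_mem_QR f.2) (SG_mem_QR g.2), map_add, Pi.add_apply]
  map_smul' c f := by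
    ext n
    rw [Submodule.coe_smul, qExp_smul (SG_mem_QR f.2), PowerSeries.coeff_smul, Pi.smul_apply]
    rfl

instance finite_SG : FiniteDimensional ℂ (SG (Gamma1 N) k) := by
  let L' : SG (Gamma1 N) k →ₗ[ℂ] (Fin (stB N k + 1) → ℂ) :=
    LinearMap.pi fun i ↦ (LinearMap.proj (i : ℕ)).comp (coefL N k)
  refine FiniteDimensional.of_injective L' ?_
  rw [injective_iff_map_eq_zero]
  intro f hf
  apply Subtype.ext
  refine eq_zero_of_coeff f.2.1 fun n hn ↦ ?_
  exact congrFun hf ⟨n, Nat.lt_succ_iff.mpr hn⟩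

theorem qCoeff_mem_range (f : CuspForm (Gamma1 N) k) :
    (fun n => qCoeff f n) ∈ LinearMap.range (coefL N k) :=
  ⟨⟨f, coe_mem_SG f⟩, rfl⟩

/-- conjugating an eigensequence -/
theorem IsEig.conj {N : ℕ} {ψ : ZMod N → ℂ} {b : ℕ → ℂ} (h : IsEig N ψ b) (σ : ℂ ≃+* ℂ) :
    IsEig N (fun d => σ (ψ d)) (fun n => σ (b n)) where
  zero := by rw [h.zero, map_zero]
  one := by rw [h.one, map_one]
  supp n hn := by rw [h.supp n hn, map_zero]
  rel p hp hpN n := by
    rw [← map_mul, ← h.rel p hp hpN n, map_add, map_mul]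
    congr 2
    split_ifs <;> simp

/-- **The number field of a weight one eigenform.** -/
theorem exists_field (ε : DirichletCharacter ℂ N) {M : ℕ} [NeZero M]
    (f : CuspForm (Gamma1 M) 1) (hf : IsEig N ε (fun n => qCoeff f n)) :
    ∃ K : IntermediateField ℚ ℂ, FiniteDimensional ℚ K ∧ (∀ n, qCoeff f n ∈ K) ∧
      ∀ d, ε d ∈ K := by
  set c : ℕ ⊕ ZMod N → ℂ := Sum.elim (fun n => qCoeff f n) ε with hc
  set V := LinearMap.range (coefL M 1) with hV
  have hVfin : FiniteDimensional ℂ V := inferInstance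
  set O : Set (ℕ ⊕ ZMod N → ℂ) := ⋃ χ : DirichletCharacter ℂ N,
    (fun b : ℕ → ℂ => Sum.elim b χ) '' {b | IsEig N χ b ∧ b ∈ V} with hO
  have hOfin : O.Finite := by
    refine Set.finite_iUnion fun χ => ?_
    exact (finite_eig (χ : ZMod N → ℂ) V).image _
  have hσ : ∀ σ : ℂ ≃+* ℂ, (fun i => σ (c i)) ∈ O := by
    intro σ
    rw [hO, Set.mem_iUnion]
    refine ⟨ε.ringHomComp σ.toRingHom, fun n => σ (qCoeff f n), ⟨?_, ?_⟩, ?_⟩
    · exact hf.conj σ
    · obtain ⟨g, hg⟩ := exists_conj_cusp σ f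
      have := qCoeff_mem_range g
      have h2 : (fun n => qCoeff g n) = fun n => σ (qCoeff f n) := funext hg
      rwa [h2] at this
    · ext i
      rcases i with n | d
      · rfl
      · rfl
  obtain ⟨K, hK, hKc⟩ := exists_field_of_finite_orbit c hOfin hσ
  exact ⟨K, hK, fun n => hKc (Sum.inl n), fun d => hKc (Sum.inr d)⟩

end Fermat.Agent.H23.W1
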