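import Fermat.Agent.H23.W1.Bdd
import Fermat.Agent.H23.W1.Field
import Fermat.Agent.H08.RankOne

set_option autoImplicit false

/-!
# Integrality of the coefficients of weight one eigenforms
-/

noncomputable section

open UpperHalfPlane hiding I
open Filter Function Complex Topology CongruenceSubgroup ModularForm
open scoped MatrixGroups Real ModularForm Manifold Polynomial

namespace Fermat.Agent.H23.W1

open Fermat.Agent.IntStr (QR)
open ModularFormClass (qCoeff)

section Val

variable {K : Type*} [Field K] (A : ValuationSubring K) {N : ℕ}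

/-- eigensequences with bounded denominators have integral eigenvalues -/
theorem eigenvalue_mem [MulArchimedean A.ValueGroup] {b : ℕ → K} {e : K} (he : e ∈ A)
    (hb1 : b 1 = 1) {p : ℕ} (hp : p.Prime)
    (hrel : ∀ n : ℕ, b (p * n) + e * (if p ∣ n then b (n / p) else 0) = b p * b n)
    {c : K} (hc0 : c ≠ 0) (hc : ∀ n, c * b n ∈ A) : b p ∈ A := by
  set W : Submodule A K := Submodule.span A (Set.range fun i : ℕ => b (p ^ i)) with hW
  have hWc : ∀ w ∈ W, c * w ∈ A := by
    intro w hw
    induction hw using Submodule.span_induction with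
    | mem w hw =>
      obtain ⟨i, rfl⟩ := hw
      exact hc _
    | zero => rw [mul_zero]; exact zero_mem A
    | add x y _ _ hx hy => rw [mul_add]; exact add_mem hx hy
    | smul a x _ hx =>
      have : c * (a • x) = a * (c * x) := by
        rw [show a • x = (a : K) * x from rfl]; ring
      rw [this]
      exact mul_mem a.2 hx
  have hgen : ∀ i, b (p ^ i) ∈ W := fun i => Submodule.subset_span ⟨i, rfl⟩
  have hstab : ∀ w ∈ W, b p * w ∈ W := by
    intro w hw
    induction hw using Submodule.span_induction with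
    | mem w hw =>
      obtain ⟨i, rfl⟩ := hw
      show b p * b (p ^ i) ∈ W
      rw [← hrel]
      refine add_mem ?_ ?_
      · rw [← pow_succ']
        exact hgen _
      · rcases Nat.eq_zero_or_pos i with rfl | hi
        · have : ¬ p ∣ p ^ 0 := by
            rw [pow_zero]
            intro h
            exact hp.one_lt.ne' (Nat.dvd_one.mp h)
          rw [if_neg this, mul_zero]
          exact zero_mem _
        · have h1 : p ∣ p ^ i := dvd_pow_self p hi.ne'
          rw [if_pos h1]
          have h2 : p ^ i / p = p ^ (i - 1) := by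
            obtain ⟨j, rfl⟩ := Nat.exists_eq_succ_of_ne_zero hi.ne'
            rw [Nat.succ_eq_add_one, pow_succ, Nat.mul_div_cancel _ hp.pos, Nat.add_sub_cancel]
          rw [h2]
          have h3 := W.smul_mem (⟨e, he⟩ : A) (hgen (i - 1))
          exact h3
    | zero => rw [mul_zero]; exact zero_mem _
    | add x y _ _ hx hy => rw [mul_add]; exact add_mem hx hy
    | smul a x _ hx =>
      have : b p * (a • x) = a • (b p * x) := by
        rw [show a • x = (a : K) * x from rfl, show a • (b p * x) = (a : K) * (b p * x) from rfl]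
        ring
      rw [this]
      exact W.smul_mem a hx
  refine Q.mem_of_mul_pow_mem hc0 fun n => hWc _ ?_
  induction n with
  | zero =>
    have := hgen 0
    rwa [pow_zero, hb1, ← pow_zero (b p)] at this
  | succ n ih =>
    rw [pow_succ']
    exact hstab _ ih

theorem coeff_mem [MulArchimedean A.ValueGroup] {b : ℕ → K} {e : ZMod N → K}
    (he : ∀ p : ℕ, p.Prime → ¬ p ∣ N → e (p : ZMod N) ∈ A)
    (hb0 : b 0 = 0) (hb1 : b 1 = 1) (hsupp : ∀ n : ℕ, ¬ n.Coprime N → b n = 0)
    (hrel : ∀ p : ℕ, p.Prime → ¬ p ∣ N → ∀ n : ℕ,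
      b (p * n) + e (p : ZMod N) * (if p ∣ n then b (n / p) else 0) = b p * b n)
    {c : K} (hc0 : c ≠ 0) (hc : ∀ n, c * b n ∈ A) (n : ℕ) : b n ∈ A := by
  induction n using Nat.strong_induction_on with
  | _ n ih =>
    rcases Nat.eq_zero_or_pos n with rfl | hn
    · rw [hb0]; exact zero_mem A
    rcases Nat.eq_or_lt_of_le hn with h1 | h1
    · rw [← h1]
      show b 1 ∈ A
      rw [hb1]; exact one_mem A
    · have hn1 : n ≠ 1 := by omega
      have hp := Nat.minFac_prime hn1
      obtain ⟨m, hm⟩ := Nat.minFac_dvd n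
      set p := n.minFac with hpdef
      have hm0 : 0 < m := by
        rcases Nat.eq_zero_or_pos m with h0 | h0
        · rw [h0, mul_zero] at hm; omega
        · exact h0
      have hmn : m < n := by
        rw [hm]
        exact (Nat.lt_mul_iff_one_lt_left hm0).mpr hp.one_lt
      by_cases hpN : p ∣ N
      · have hnc : ¬ n.Coprime N := by
          intro hc
          have h2 : p ∣ n.gcd N := Nat.dvd_gcd ⟨m, hm⟩ hpN
          rw [hc] at h2
          exact hp.one_lt.ne' (Nat.dvd_one.mp h2)
        rw [hsupp n hnc]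
        exact zero_mem A
      · have e1 := hrel p hp hpN m
        have e2 := eigenvalue_mem A (he p hp hpN) hb1 hp (hrel p hp hpN) hc0 hc
        have e3 : b (p * m) = b p * b m - e (p : ZMod N) * (if p ∣ m then b (m / p) else 0) := by
          rw [← e1]; ring
        have e4 : b n = b (p * m) := by rw [← hm]
        rw [e4, e3]
        refine sub_mem (mul_mem e2 (ih m hmn)) (mul_mem (he p hp hpN) ?_)
        split_ifs
        · exact ih _ (lt_of_le_of_lt (Nat.div_le_self m p) hmn)
        · exact zero_mem A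

/-- a proper valuation ring of an algebraic extension of `ℚ` lies over a prime -/
theorem exists_liesOver [Algebra ℚ K] [Algebra.IsAlgebraic ℚ K] {x : K} (hx : x ∉ A) :
    ∃ q : ℕ, q.Prime ∧ A.LiesOverPrime q := by
  by_contra hcon
  push Not at hcon
  have hunit : ∀ q : ℕ, q.Prime → ((q : K))⁻¹ ∈ A := by
    intro q hq
    have h1 : (q : K) ∉ A.nonunits := hcon q hq
    by_contra h2
    apply h1
    have h3 : A.valuation (q : K) ≤ 1 := (A.valuation_le_one_iff _).mpr (natCast_mem A q)
    rw [ValuationSubring.mem_nonunits_iff]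
    rcases lt_or_eq_of_le h3 with h4 | h4
    · exact h4
    · exfalso
      apply h2
      rw [← A.valuation_le_one_iff, map_inv₀, h4, inv_one]
  have hnat : ∀ n : ℕ, n ≠ 0 → ((n : K))⁻¹ ∈ A := by
    intro n
    induction n using Nat.recOnMul with
    | zero => intro h; exact absurd rfl h
    | one => intro _; simp
    | prime p hp => intro _; exact hunit p hp
    | mul a b ha hb =>
      intro h
      push_cast
      rw [_root_.mul_inv]
      have h1 : a ≠ 0 := fun h0 => h (by rw [h0, zero_mul])
      have h2 : b ≠ 0 := fun h0 => h (by rw [h0, mul_zero])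
      exact mul_mem (ha h1) (hb h2)
  have hrat : ∀ r : ℚ, algebraMap ℚ K r ∈ A := by
    intro r
    have h1 : algebraMap ℚ K r = (r.num : K) * ((r.den : ℕ) : K)⁻¹ := by
      rw [eq_ratCast, Rat.cast_def, div_eq_mul_inv]
    rw [h1]
    exact mul_mem (intCast_mem A _) (hnat _ r.den_nz)
  apply hx
  have hint : IsIntegral ℚ x := (Algebra.IsAlgebraic.isAlgebraic x).isIntegral
  obtain ⟨P, hP, hPx⟩ := hint
  have h2 : IsIntegral A x := by
    refine ⟨P.map ((algebraMap ℚ K).codRestrict A.toSubring hrat), hP.map _, ?_⟩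
    rw [Polynomial.eval₂_map]
    exact hPx
  obtain ⟨y, hy⟩ := IsIntegrallyClosed.isIntegral_iff.mp h2
  rw [← hy]
  exact y.2

end Val

/-- **Integrality** of the coefficients of weight one eigenforms. -/
theorem isIntegral_coeff {N : ℕ} [NeZero N] (ε : DirichletCharacter ℂ N) {M : ℕ} [NeZero M]
    (hM : 3 ≤ M) (f : CuspForm (Gamma1 M) 1) (hf : IsEig N ε (fun n => qCoeff f n)) (n : ℕ) :
    IsIntegral ℤ (qCoeff f n) := by
  obtain ⟨K₀, hK₀, hcoef, hε⟩ := exists_field ε f hf
  let E := algebraicClosure ℚ ℂ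
  have hKE : ∀ x ∈ K₀, x ∈ E := by
    intro x hx
    have h1 : IsIntegral ℚ (⟨x, hx⟩ : K₀) := IsIntegral.of_finite ℚ _
    exact mem_algebraicClosure_iff.mpr (h1.map K₀.val).isAlgebraic
  have hE : IsAlgClosure ℚ E := algebraicClosure.isAlgClosure ℚ ℂ
  have hEc : IsAlgClosed E := hE.isAlgClosed
  have hEa : Algebra.IsAlgebraic ℚ E := hE.isAlgebraic
  let b : ℕ → E := fun n => ⟨qCoeff f n, hKE _ (hcoef n)⟩
  let e : ZMod N → E := fun d => ⟨ε d, hKE _ (hε d)⟩
  have hrel : ∀ p : ℕ, p.Prime → ¬ p ∣ N → ∀ n : ℕ,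
      b (p * n) + e (p : ZMod N) * (if p ∣ n then b (n / p) else 0) = b p * b n := by
    intro p hp hpN n
    apply Subtype.ext
    have h1 := hf.rel p hp hpN n
    have h2 : ((if p ∣ n then b (n / p) else 0 : E) : ℂ) =
        if p ∣ n then qCoeff f (n / p) else 0 := by
      split_ifs <;> rfl
    show qCoeff f (p * n) + ε (p : ZMod N) * ((if p ∣ n then b (n / p) else 0 : E) : ℂ) =
      qCoeff f p * qCoeff f n
    rw [h2]
    exact h1
  have hall : ∀ A : ValuationSubring E, b n ∈ A := by
    intro A
    by_contra hx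
    obtain ⟨q, hq, hA⟩ := exists_liesOver A hx
    have := H08.mulArchimedean_valueGroup hq hA
    obtain ⟨c, hc0, hc⟩ := exists_denominator (K := E) A hM (isG_coe f) (a := b) (fun n => rfl)
    refine hx (coeff_mem A (e := e) ?_ ?_ ?_ ?_ hrel hc0 hc n)
    · intro p hp hpN
      have hu : IsUnit (p : ZMod N) := by
        rw [ZMod.isUnit_iff_coprime]
        exact (Nat.Prime.coprime_iff_not_dvd hp).mpr hpN
      obtain ⟨u, hu⟩ := hu
      have h1 : e (p : ZMod N) ^ Fintype.card (ZMod N)ˣ = 1 := by
        apply Subtype.ext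
        show (ε (p : ZMod N)) ^ Fintype.card (ZMod N)ˣ = 1
        rw [← hu, ← map_pow, ← Units.val_pow_eq_pow_val, pow_card_eq_one, Units.val_one, map_one]
      exact H18J.mem_of_pow_eq_one Fintype.card_pos h1
    · exact Subtype.ext hf.zero
    · exact Subtype.ext hf.one
    · exact fun n hn => Subtype.ext (hf.supp n hn)
  have hmem : b n ∈ (⨅ V : {V : ValuationSubring E // (∅ : Set E) ⊆ V.toSubring},
      V.1.toSubring) := by
    rw [Subring.mem_iInf]
    exact fun V => hall V.1
  rw [iInf_valuationSubring_superset] at hmem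
  have h3 : IsIntegral (Subring.closure (∅ : Set E)) (b n) := hmem
  obtain ⟨P, hP, hPx⟩ := h3
  have h4 : ∀ y : Subring.closure (∅ : Set E), ∃ m : ℤ, (m : E) = y := by
    intro y
    have h5 : (y : E) ∈ (⊥ : Subring E) :=
      Subring.closure_le.mpr (Set.empty_subset _) y.2
    exact Subring.mem_bot.mp h5
  have h6 : IsIntegral ℤ (b n) := by
    have h7 : Function.Surjective (algebraMap ℤ (Subring.closure (∅ : Set E))) := by
      intro y
      obtain ⟨m, hm⟩ := h4 y
      exact ⟨m, Subtype.ext (by simpa using hm)⟩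
    obtain ⟨Q, hQ, -, hQm⟩ := Polynomial.lifts_and_natDegree_eq_and_monic
      (Polynomial.mem_lifts_of_surjective h7 P) hP
    refine ⟨Q, hQm, ?_⟩
    rw [← hQ, Polynomial.eval₂_map] at hPx
    have h8 : (algebraMap (Subring.closure (∅ : Set E)) E).comp
        (algebraMap ℤ (Subring.closure (∅ : Set E))) = algebraMap ℤ E := Subsingleton.elim _ _
    rwa [h8] at hPx
  exact h6.map (E.val.restrictScalars ℤ)

end Fermat.Agent.H23.W1
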