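import Fermat.Agent.H23.W1.Rot
import Fermat.Agent.H23.W1.Gen
import Fermat.Prelude.Def_ModularForm_HeckeOperator
import Fermat.Prelude.Thm_UpperHalfPlane_qCoeff_heckeT
import Fermat.Prelude.Thm_UpperHalfPlane_qCoeff_heckeU
import Fermat.Prelude.Thm_UpperHalfPlane_eq_of_forall_qCoeff_eq
import Fermat.Prelude.Def_FLTPrelim_Modularity

set_option autoImplicit false

/-!
# The nebentypus of a weight one form from the Hecke relations
-/

noncomputable section

open UpperHalfPlane hiding I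
open Filter Function Complex Matrix Topology CongruenceSubgroup ModularForm
open scoped MatrixGroups Real ModularForm Manifold

namespace Fermat.Agent.H23.W1

open Fermat.Agent.IntStr (QR)
open ModularFormClass (qCoeff)

section Coset

variable {N p : ℕ} {k : ℤ} {f : ℍ → ℂ}

theorem val_coe_GL (γ : SL(2, ℤ)) : ((γ : GL (Fin 2) ℝ) : Matrix (Fin 2) (Fin 2) ℝ) =
    !![((γ 0 0 : ℤ) : ℝ), ((γ 0 1 : ℤ) : ℝ); ((γ 1 0 : ℤ) : ℝ), ((γ 1 1 : ℤ) : ℝ)] := by
  ext i j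
  fin_cases i <;> fin_cases j <;> rfl

/-- the conjugate by `(1 0; 0 p)` -/
def cnj (p : ℕ) (γ : SL(2, ℤ)) (h : (p : ℤ) ∣ γ 0 1) : SL(2, ℤ) :=
  ⟨!![γ 0 0, h.choose; p * γ 1 0, γ 1 1], by
    have h1 := h.choose_spec
    have h2 := γ.det_coe
    rw [Matrix.det_fin_two] at h2
    rw [Matrix.det_fin_two_of]
    rw [h1] at h2
    linear_combination h2⟩

theorem cnj_mem {γ : SL(2, ℤ)} (h : (p : ℤ) ∣ γ 0 1) (hγ : γ ∈ Gamma1 N) :
    cnj p γ h ∈ Gamma1 N := by
  rw [Gamma1_mem] at hγ ⊢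
  refine ⟨hγ.1, hγ.2.1, ?_⟩
  show ((p * γ 1 0 : ℤ) : ZMod N) = 0
  push_cast
  rw [hγ.2.2, mul_zero]

theorem heckeMatrix_mul (hp : p ≠ 0) {γ : SL(2, ℤ)} (h : (p : ℤ) ∣ γ 0 1) :
    heckeMatrix p 0 * (γ : GL (Fin 2) ℝ) = (cnj p γ h : GL (Fin 2) ℝ) * heckeMatrix p 0 := by
  have h1 := h.choose_spec
  apply Units.ext
  have h2 : ((γ 0 1 : ℤ) : ℝ) = (p : ℝ) * ((h.choose : ℤ) : ℝ) := by exact_mod_cast h1
  have e0 : cnj p γ h 0 0 = γ 0 0 := rfl
  have e1 : cnj p γ h 0 1 = h.choose := rfl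
  have e2 : cnj p γ h 1 0 = p * γ 1 0 := rfl
  have e3 : cnj p γ h 1 1 = γ 1 1 := rfl
  rw [Units.val_mul, Units.val_mul, val_heckeMatrix hp, val_coe_GL, val_coe_GL,
    e0, e1, e2, e3, h2, Matrix.mul_fin_two, Matrix.mul_fin_two]
  push_cast
  ext i j
  fin_cases i <;> fin_cases j <;> simp [mul_comm]

/-- `f ∣ (1 0; 0 p)` is invariant -/
theorem slash_hecke_slash (hp : p ≠ 0) (hf : ∀ γ ∈ Gamma1 N, f ∣[k] γ = f) {γ : SL(2, ℤ)}
    (h : (p : ℤ) ∣ γ 0 1) (hγ : γ ∈ Gamma1 N) :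
    (f ∣[k] heckeMatrix p 0) ∣[k] γ = f ∣[k] heckeMatrix p 0 := by
  rw [SL_slash, ← SlashAction.slash_mul, heckeMatrix_mul hp h, SlashAction.slash_mul,
    ← SL_slash, hf _ (cnj_mem h hγ)]

/-- the class of the first row -/
def rowc (p : ℕ) (γ : SL(2, ℤ)) : Option (ZMod p) :=
  if ((γ 0 0 : ℤ) : ZMod p) = 0 then none
  else some (((γ 0 1 : ℤ) : ZMod p) * (((γ 0 0 : ℤ) : ZMod p))⁻¹)

variable [Fact p.Prime]

theorem rowc_eq_iff (γ δ : SL(2, ℤ)) : rowc p γ = rowc p δ ↔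
    ((γ 0 1 : ℤ) : ZMod p) * ((δ 0 0 : ℤ) : ZMod p) =
      ((γ 0 0 : ℤ) : ZMod p) * ((δ 0 1 : ℤ) : ZMod p) := by
  have hd : ∀ γ : SL(2, ℤ), ((γ 0 0 : ℤ) : ZMod p) * ((γ 1 1 : ℤ) : ZMod p) -
      ((γ 0 1 : ℤ) : ZMod p) * ((γ 1 0 : ℤ) : ZMod p) = 1 := fun γ => by
    have h2 := γ.det_coe
    rw [Matrix.det_fin_two] at h2
    have := congrArg (fun x : ℤ => (x : ZMod p)) h2
    push_cast at this
    exact this
  have e1 := hd γ
  have e2 := hd δ
  rw [rowc, rowc]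
  by_cases h1 : ((γ 0 0 : ℤ) : ZMod p) = 0 <;> by_cases h2 : ((δ 0 0 : ℤ) : ZMod p) = 0
  · simp [h1, h2]
  · rw [if_pos h1, if_neg h2]
    rw [h1, zero_mul, zero_sub] at e1
    simp only [reduceCtorEq, false_iff]
    rw [h1, zero_mul]
    intro h
    rcases mul_eq_zero.mp h with h3 | h3
    · rw [h3, zero_mul, neg_zero] at e1
      exact zero_ne_one e1
    · exact h2 h3
  · rw [if_neg h1, if_pos h2]
    rw [h2, zero_mul, zero_sub] at e2
    simp only [reduceCtorEq, false_iff]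
    rw [h2, mul_zero]
    intro h
    rcases mul_eq_zero.mp h.symm with h3 | h3
    · exact h1 h3
    · rw [h3, zero_mul, neg_zero] at e2
      exact zero_ne_one e2
  · rw [if_neg h1, if_neg h2, Option.some_inj]
    constructor
    · intro h
      field_simp at h
      linear_combination h
    · intro h
      field_simp
      linear_combination h

theorem dvd_of_rowc_eq {γ δ : SL(2, ℤ)} (h : rowc p γ = rowc p δ) :
    (p : ℤ) ∣ (γ * δ⁻¹) 0 1 := by
  rw [rowc_eq_iff] at h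
  rw [← ZMod.intCast_zmod_eq_zero_iff_dvd]
  rw [Matrix.SpecialLinearGroup.coe_mul, Matrix.mul_apply, Fin.sum_univ_two,
    Matrix.SpecialLinearGroup.coe_inv, Matrix.adjugate_fin_two]
  simp
  linear_combination h

theorem rowc_mul_right {γ δ ε : SL(2, ℤ)} (h : rowc p (γ * ε) = rowc p (δ * ε)) :
    rowc p γ = rowc p δ := by
  rw [rowc_eq_iff] at h ⊢
  have h2 := ε.det_coe
  rw [Matrix.det_fin_two] at h2
  have h3 := congrArg (fun x : ℤ => (x : ZMod p)) h2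
  push_cast at h3
  simp only [Matrix.SpecialLinearGroup.coe_mul, Matrix.mul_apply, Fin.sum_univ_two] at h
  push_cast at h
  linear_combination h - (((γ 0 1 : ℤ) : ZMod p) * ((δ 0 0 : ℤ) : ZMod p) -
      ((γ 0 0 : ℤ) : ZMod p) * ((δ 0 1 : ℤ) : ZMod p)) * h3

theorem slash_eq_of_rowc (hf : ∀ γ ∈ Gamma1 N, f ∣[k] γ = f) {γ δ : SL(2, ℤ)}
    (hγ : γ ∈ Gamma1 N) (hδ : δ ∈ Gamma1 N) (h : rowc p γ = rowc p δ) :
    (f ∣[k] heckeMatrix p 0) ∣[k] γ = (f ∣[k] heckeMatrix p 0) ∣[k] δ := by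
  have h1 := slash_hecke_slash (k := k) (Fact.out : p.Prime).ne_zero hf (dvd_of_rowc_eq h)
    (mul_mem hγ (inv_mem hδ))
  conv_rhs => rw [← h1]
  rw [← SlashAction.slash_mul, inv_mul_cancel_right]

/-- the sum over representatives is invariant -/
theorem sum_slash (hf : ∀ γ ∈ Gamma1 N, f ∣[k] γ = f) (rep : Option (ZMod p) → SL(2, ℤ))
    (hrep : ∀ x, rep x ∈ Gamma1 N) (hrow : ∀ x, rowc p (rep x) = x) {γ : SL(2, ℤ)}
    (hγ : γ ∈ Gamma1 N) :
    (∑ x, (f ∣[k] heckeMatrix p 0) ∣[k] rep x) ∣[k] γ =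
      ∑ x, (f ∣[k] heckeMatrix p 0) ∣[k] rep x := by
  rw [SlashAction.sum_slash]
  have hinj : Function.Injective fun x => rowc p (rep x * γ) := by
    intro x y hxy
    rw [← hrow x, ← hrow y]
    exact rowc_mul_right hxy
  have hbij := Finite.injective_iff_bijective.mp hinj
  refine Fintype.sum_bijective _ hbij _ _ fun x => ?_
  rw [← SlashAction.slash_mul]
  exact slash_eq_of_rowc hf (mul_mem (hrep x) hγ) (hrep _) (hrow _).symm

/-- the representative of the last class -/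
def rInf (p N : ℕ) (x y : ℤ) (h : x * p + y * N = 1) : SL(2, ℤ) :=
  ⟨!![p * x, -y; N, 1], by
    rw [Matrix.det_fin_two_of]
    linear_combination h⟩

/-- the matrix giving the diamond operator -/
def rDia (p N : ℕ) (x y : ℤ) (h : x * p + y * N = 1) : SL(2, ℤ) :=
  ⟨!![x, -y; N, p], by
    rw [Matrix.det_fin_two_of]
    linear_combination h⟩

omit [Fact p.Prime] in
theorem rInf_mem {x y : ℤ} (h : x * p + y * N = 1) : rInf p N x y h ∈ Gamma1 N := by
  rw [Gamma1_mem]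
  refine ⟨?_, ?_, ?_⟩
  · show ((p * x : ℤ) : ZMod N) = 1
    have h3 := congrArg (fun x : ℤ => (x : ZMod N)) h
    push_cast at h3 ⊢
    rw [ZMod.natCast_self, mul_zero, add_zero] at h3
    rw [mul_comm, h3]
  · show ((1 : ℤ) : ZMod N) = 1
    simp
  · show ((N : ℤ) : ZMod N) = 0
    simp

omit [Fact p.Prime] in
theorem rDia_mem {x y : ℤ} (h : x * p + y * N = 1) : rDia p N x y h ∈ Gamma0 N := by
  rw [Gamma0_mem]
  show ((N : ℤ) : ZMod N) = 0
  simp

omit [Fact p.Prime] in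
theorem heckeMatrix_mul_rInf (hp : p ≠ 0) {x y : ℤ} (h : x * p + y * N = 1) :
    heckeMatrix p 0 * (rInf p N x y h : GL (Fin 2) ℝ) =
      (rDia p N x y h : GL (Fin 2) ℝ) * heckeDiagMatrix p := by
  apply Units.ext
  have e0 : rInf p N x y h 0 0 = p * x := rfl
  have e1 : rInf p N x y h 0 1 = -y := rfl
  have e2 : rInf p N x y h 1 0 = N := rfl
  have e3 : rInf p N x y h 1 1 = 1 := rfl
  have f0 : rDia p N x y h 0 0 = x := rfl
  have f1 : rDia p N x y h 0 1 = -y := rfl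
  have f2 : rDia p N x y h 1 0 = N := rfl
  have f3 : rDia p N x y h 1 1 = p := rfl
  rw [Units.val_mul, Units.val_mul, val_heckeMatrix hp, val_heckeDiagMatrix hp, val_coe_GL,
    val_coe_GL, e0, e1, e2, e3, f0, f1, f2, f3, Matrix.mul_fin_two, Matrix.mul_fin_two]
  push_cast
  ext i j
  fin_cases i <;> fin_cases j <;> simp [mul_comm]

omit [Fact p.Prime] in
theorem heckeMatrix_mul_T (hp : p ≠ 0) (j : ℕ) :
    heckeMatrix p 0 * ((ModularGroup.T ^ j : SL(2, ℤ)) : GL (Fin 2) ℝ) = heckeMatrix p j := by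
  apply Units.ext
  rw [Units.val_mul, val_heckeMatrix hp, val_heckeMatrix hp]
  have hT : (((ModularGroup.T ^ j : SL(2, ℤ)) : Matrix (Fin 2) (Fin 2) ℤ)) = !![1, (j : ℤ); 0, 1] := by
    have := ModularGroup.coe_T_zpow (j : ℤ)
    rwa [zpow_natCast] at this
  ext a b
  fin_cases a <;> fin_cases b <;>
    simp [Matrix.mul_apply, Fin.sum_univ_two, hT, mul_comm, -map_pow]

theorem T_pow_mem (j : ℕ) : (ModularGroup.T ^ j : SL(2, ℤ)) ∈ Gamma1 N := by
  refine pow_mem ?_ j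
  rw [Gamma1_mem]
  simp [ModularGroup.T]

/-- **Modularity of `T_p`** for `Γ₁(N)`. -/
theorem hecke_slash (hf : ∀ γ ∈ Gamma1 N, f ∣[k] γ = f) {x y : ℤ} (h : x * p + y * N = 1)
    {γ : SL(2, ℤ)} (hγ : γ ∈ Gamma1 N) :
    (heckeU k p f + (f ∣[k] rDia p N x y h) ∣[k] heckeDiagMatrix p) ∣[k] γ =
      heckeU k p f + (f ∣[k] rDia p N x y h) ∣[k] heckeDiagMatrix p := by
  have hp0 : p ≠ 0 := (Fact.out : p.Prime).ne_zero
  set rep : Option (ZMod p) → SL(2, ℤ) := fun o => o.elim (rInf p N x y h)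
    fun b => ModularGroup.T ^ b.val with hrep
  have hsum : ∑ o, (f ∣[k] heckeMatrix p 0) ∣[k] rep o =
      heckeU k p f + (f ∣[k] rDia p N x y h) ∣[k] heckeDiagMatrix p := by
    rw [Fintype.sum_option, add_comm]
    congr 1
    · rw [heckeU_def]
      refine Finset.sum_bij (fun b _ => ZMod.val b) (fun b _ => ?_) (fun b _ c _ hbc => ?_)
        (fun j hj => ?_) (fun b _ => ?_)
      · exact Finset.mem_range.mpr (ZMod.val_lt b)
      · exact ZMod.val_injective p hbc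
      · exact ⟨(j : ZMod p), Finset.mem_univ _, ZMod.val_cast_of_lt (Finset.mem_range.mp hj)⟩
      · show (f ∣[k] heckeMatrix p 0) ∣[k] (ModularGroup.T ^ b.val) = _
        rw [SL_slash, ← SlashAction.slash_mul, heckeMatrix_mul_T hp0]
    · show (f ∣[k] heckeMatrix p 0) ∣[k] (rInf p N x y h) = _
      rw [SL_slash, ← SlashAction.slash_mul, heckeMatrix_mul_rInf hp0, SlashAction.slash_mul,
        ← SL_slash]
  rw [← hsum]
  refine sum_slash hf rep ?_ ?_ hγ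
  · rintro (_ | b)
    · exact rInf_mem h
    · exact T_pow_mem _
  · rintro (_ | b)
    · show rowc p (rInf p N x y h) = none
      rw [rowc, if_pos]
      show ((p * x : ℤ) : ZMod p) = 0
      push_cast
      rw [ZMod.natCast_self, zero_mul]
    · show rowc p (ModularGroup.T ^ b.val) = some b
      have hT : (((ModularGroup.T ^ b.val : SL(2, ℤ)) : Matrix (Fin 2) (Fin 2) ℤ)) =
          !![1, (b.val : ℤ); 0, 1] := by
        have := ModularGroup.coe_T_zpow (b.val : ℤ)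
        rwa [zpow_natCast] at this
      rw [rowc, hT]
      simp
end Coset

end Fermat.Agent.H23.W1
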