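import Fermat.Agent.H23.W1.Neb
import Fermat.Agent.IntStr.Family
import Fermat.Prelude.Thm_ModularForm_periodic_heckeU_comp_ofComplex
import Fermat.Prelude.Thm_ModularForm_periodic_heckeT_comp_ofComplex
import Fermat.Prelude.Thm_ModularForm_isBoundedAtImInfty_heckeU
import Fermat.Prelude.Thm_ModularForm_isBoundedAtImInfty_heckeT
import Fermat.Prelude.Thm_ModularForm_mdifferentiable_heckeU
import Fermat.Prelude.Thm_ModularForm_mdifferentiable_heckeT

set_option autoImplicit false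

/-!
# The nebentypus of a weight one form from the Hecke relations, II
-/

noncomputable section

open UpperHalfPlane hiding I
open Filter Function Complex Matrix Topology CongruenceSubgroup ModularForm
open scoped MatrixGroups Real ModularForm Manifold

namespace Fermat.Agent.H23.W1

open Fermat.Agent.IntStr (QR eq_of_qExpansion_eq qExp_add qExp_smul slash_eq_iff)
open ModularFormClass (qCoeff)

variable {N p : ℕ} {f : ℍ → ℂ}

theorem heckeU_mem_QR (hf : f ∈ QR 1) (k : ℤ) (p : ℕ) : heckeU k p f ∈ QR 1 := by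
  refine ⟨?_, mdifferentiable_heckeU hf.2.1 k p, isBoundedAtImInfty_heckeU hf.2.2 k p⟩
  have := periodic_heckeU_comp_ofComplex (by simpa using hf.1) k p
  simpa using this

theorem heckeT_mem_QR (hf : f ∈ QR 1) (k : ℤ) (p : ℕ) : heckeT k p f ∈ QR 1 := by
  refine ⟨?_, mdifferentiable_heckeT hf.2.1 k p, isBoundedAtImInfty_heckeT hf.2.2 k p⟩
  have := periodic_heckeT_comp_ofComplex (by simpa using hf.1) k p
  simpa using this

theorem diag_eq (k : ℤ) (p : ℕ) (f : ℍ → ℂ) :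
    f ∣[k] heckeDiagMatrix p = heckeT k p f + (-1 : ℂ) • heckeU k p f := by
  rw [heckeT_eq_heckeU_add]
  ext z
  simp

theorem diag_mem_QR (hf : f ∈ QR 1) (k : ℤ) (p : ℕ) : f ∣[k] heckeDiagMatrix p ∈ QR 1 := by
  rw [diag_eq]
  exact (QR 1).add_mem (heckeT_mem_QR hf k p) ((QR 1).smul_mem (heckeU_mem_QR hf k p) _)

theorem qCoeff_add {f g : ℍ → ℂ} (hf : f ∈ QR 1) (hg : g ∈ QR 1) (n : ℕ) :
    qCoeff (f + g) n = qCoeff f n + qCoeff g n := by
  rw [qCoeff, qExp_add hf hg, map_add]; rfl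

theorem qCoeff_smul {f : ℍ → ℂ} (hf : f ∈ QR 1) (c : ℂ) (n : ℕ) :
    qCoeff (c • f) n = c * qCoeff f n := by
  rw [qCoeff, qExp_smul hf]; simp [qCoeff]

theorem qCoeff_diag (hf : f ∈ QR 1) (k : ℤ) {p : ℕ} (hp : p ≠ 0) (n : ℕ) :
    qCoeff (f ∣[k] heckeDiagMatrix p) n =
      if p ∣ n then (p : ℂ) ^ (k - 1) * qCoeff f (n / p) else 0 := by
  have hper : Function.Periodic (f ∘ ofComplex) 1 := by simpa using hf.1
  rw [diag_eq, qCoeff_add (heckeT_mem_QR hf k p) ((QR 1).smul_mem (heckeU_mem_QR hf k p) _),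
    qCoeff_smul (heckeU_mem_QR hf k p), UpperHalfPlane.qCoeff_heckeT hper hf.2.1 hf.2.2 k hp,
    UpperHalfPlane.qCoeff_heckeU hper hf.2.1 hf.2.2 k hp, coeffHeckeT_eq_coeffHeckeU_add]
  ring

/-- The Hecke relation as an identity of functions. -/
theorem heckeU_add_eq (hf : f ∈ QR 1) (hp : p ≠ 0) {e a : ℂ}
    (hT : ∀ n : ℕ, qCoeff f (p * n) + e * (if p ∣ n then qCoeff f (n / p) else 0) =
      a * qCoeff f n) :
    heckeU 1 p f + e • (f ∣[(1 : ℤ)] heckeDiagMatrix p) = a • f := by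
  have hper : Function.Periodic (f ∘ ofComplex) 1 := by simpa using hf.1
  have h1 := heckeU_mem_QR hf 1 p
  have h2 := diag_mem_QR hf 1 p
  have h3 := (QR 1).smul_mem h2 e
  apply eq_of_qExpansion_eq one_pos ((QR 1).add_mem h1 h3) ((QR 1).smul_mem hf a)
  ext n
  show qCoeff _ n = qCoeff _ n
  rw [qCoeff_add h1 h3, qCoeff_smul h2, qCoeff_smul hf, ← hT n,
    UpperHalfPlane.qCoeff_heckeU hper hf.2.1 hf.2.2 1 hp, qCoeff_diag hf 1 hp, coeffHeckeU_apply,
    mul_comm n p]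
  congr 2
  split_ifs <;> simp

theorem conj_mem_Gamma1 {δ γ : SL(2, ℤ)} (hδ : δ ∈ Gamma0 N) (hγ : γ ∈ Gamma1 N) :
    δ * γ * δ⁻¹ ∈ Gamma1 N := by
  rw [Gamma1_mem] at hγ ⊢
  rw [Gamma0_mem] at hδ
  obtain ⟨h1, h2, h3⟩ := hγ
  have hd := δ.det_coe
  rw [Matrix.det_fin_two] at hd
  have h4 := congrArg (fun x : ℤ => (x : ZMod N)) hd
  push_cast at h4
  rw [hδ, mul_zero, sub_zero] at h4
  simp only [Matrix.SpecialLinearGroup.coe_mul, Matrix.SpecialLinearGroup.coe_inv,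
    Matrix.adjugate_fin_two, Matrix.mul_apply, Fin.sum_univ_two]
  simp [h1, h2, h3, hδ, h4]
  linear_combination h4

/-- two elements of `Γ₀(N)` with the same lower right entry -/
theorem mul_inv_mem_Gamma1 {γ δ : SL(2, ℤ)} (hγ : γ ∈ Gamma0 N) (hδ : δ ∈ Gamma0 N)
    (h : ((γ 1 1 : ℤ) : ZMod N) = ((δ 1 1 : ℤ) : ZMod N)) : γ * δ⁻¹ ∈ Gamma1 N := by
  rw [Gamma1_mem]
  rw [Gamma0_mem] at hγ hδ
  have hd : ∀ δ : SL(2, ℤ), ((δ 1 0 : ℤ) : ZMod N) = 0 →
      ((δ 0 0 : ℤ) : ZMod N) * ((δ 1 1 : ℤ) : ZMod N) = 1 := fun δ hδ => by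
    have hd := δ.det_coe
    rw [Matrix.det_fin_two] at hd
    have h4 := congrArg (fun x : ℤ => (x : ZMod N)) hd
    push_cast at h4
    rwa [hδ, mul_zero, sub_zero] at h4
  have e1 := hd γ hγ
  have e2 := hd δ hδ
  simp only [Matrix.SpecialLinearGroup.coe_mul, Matrix.SpecialLinearGroup.coe_inv,
    Matrix.adjugate_fin_two, Matrix.mul_apply, Fin.sum_univ_two]
  refine ⟨?_, ?_, ?_⟩
  · simp [hδ]
    rw [← h, e1]
  · simp [hγ]
    rw [h, mul_comm, e2]
  · simp [hγ, hδ]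

theorem diag_apply (hp : p ≠ 0) (g : ℍ → ℂ) (z : ℍ) :
    (g ∣[(1 : ℤ)] heckeDiagMatrix p) z = g (heckeDiagMatrix p • z) := by
  rw [slash_heckeDiagMatrix_apply 1 hp]
  simp

/-- **Vanishing of the difference**. -/
theorem eq_zero_of_diag [NeZero N] (hp : p ≠ 0) (hpN : N < p) {g : ℍ → ℂ} (hg : Continuous g)
    (h1 : ∀ γ ∈ Gamma1 N, g ∣[(1 : ℤ)] γ = g)
    (h2 : ∀ γ ∈ Gamma1 N, (g ∣[(1 : ℤ)] heckeDiagMatrix p) ∣[(1 : ℤ)] γ =
      g ∣[(1 : ℤ)] heckeDiagMatrix p) : g = 0 := by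
  have hpR : (0 : ℝ) < p := by exact_mod_cast Nat.pos_of_ne_zero hp
  have hNR : (0 : ℝ) < N := by exact_mod_cast NeZero.pos N
  have hc1 : (N : ℝ) / p < 1 := by
    rw [div_lt_one hpR]
    exact_mod_cast hpN
  have hc0 : 0 < (N : ℝ) / p := div_pos hNR hpR
  refine eq_zero_of_unip hg (c := (N : ℝ) / p) hc0 (by linarith) ⟨(N : ℚ) / p, by push_cast; rfl⟩
    (fun n hn => ?_) ?_ ?_
  · rw [hn] at hc0 hc1
    have a1 : (0 : ℤ) < n := by exact_mod_cast hc0
    have a2 : n < 1 := by exact_mod_cast hc1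
    omega
  · intro z
    have hT : ModularGroup.T ∈ Gamma1 N := by
      rw [Gamma1_mem]
      simp [ModularGroup.T]
    have h3 := slash_eq_iff.mp (congrFun (h1 _ hT) z)
    have h4 : (ModularGroup.T • z : ℍ) = uT • z := by
      ext
      rw [coe_sl_smul, UpperHalfPlane.modular_T_smul, UpperHalfPlane.coe_vadd]
      simp [jf, uT, add_comm]
    rw [← h4, h3, denom_T]
    simp [jf, uT]
  · intro w
    set Bz : SL(2, ℤ) := ⟨!![1, 0; (N : ℤ), 1], by simp⟩ with hBz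
    have hB : Bz ∈ Gamma1 N := by
      rw [Gamma1_mem]
      simp [hBz]
    set z : ℍ := heckeMatrix p 0 • w with hz
    have hzc : (z : ℂ) = w / p := by
      rw [hz, coe_heckeMatrix_smul hp]
      simp
    have hpC : (p : ℂ) ≠ 0 := by exact_mod_cast hp
    have h3 := slash_eq_iff.mp (congrFun (h2 _ hB) z)
    rw [diag_apply hp, diag_apply hp] at h3
    have e1 : heckeDiagMatrix p • z = w := by
      ext
      rw [coe_heckeDiagMatrix_smul hp, hzc]
      field_simp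
    have hden : denom (Bz : GL (Fin 2) ℝ) z = jf (uB ((N : ℝ) / p)) w := by
      rw [ModularGroup.denom_apply, hzc]
      simp only [hBz, jf, uB, Matrix.SpecialLinearGroup.coe_mk, of_apply, cons_val', cons_val_zero,
        cons_val_one, cons_val_fin_one]
      push_cast
      ring
    have e2 : heckeDiagMatrix p • (Bz • z) = uB ((N : ℝ) / p) • w := by
      ext
      rw [coe_heckeDiagMatrix_smul hp, coe_sl_smul, coe_specialLinearGroup_apply, hzc]
      have h5 := jf_ne_zero (uB ((N : ℝ) / p)) w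
      simp only [hBz, jf, uB, Matrix.SpecialLinearGroup.coe_mk, of_apply, cons_val', cons_val_zero,
        cons_val_one, cons_val_fin_one, algebraMap_int_eq, eq_intCast] at h5 ⊢
      push_cast at h5 ⊢
      have h6 : (N : ℂ) * (w / p) + 1 ≠ 0 := by
        convert h5 using 1
        ring
      have h7 : (N : ℂ) / p * w + 1 = (N : ℂ) * (w / p) + 1 := by ring
      rw [h7, one_mul, add_zero, one_mul, add_zero]
      field_simp
    rw [e2, e1, hden, zpow_one] at h3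
    exact h3

/-- **Nebentypus** of a weight one form satisfying the Hecke relations. -/
theorem nebentypus [NeZero N] (ε : DirichletCharacter ℂ N) (hf : IsG (Gamma1 N) 1 f)
    (hT : ∀ p : ℕ, p.Prime → ¬ p ∣ N → ∀ n : ℕ, qCoeff f (p * n) +
      ε (p : ZMod N) * (if p ∣ n then qCoeff f (n / p) else 0) = qCoeff f p * qCoeff f n)
    {γ : SL(2, ℤ)} (hγ : γ ∈ Gamma0 N) :
    f ∣[(1 : ℤ)] γ = ε (((γ 1 1 : ℤ)) : ZMod N) • f := by
  have hTm : ModularGroup.T ∈ Gamma1 N := by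
    rw [Gamma1_mem]
    simp [ModularGroup.T]
  have hfQ := hf.mem_QR hTm
  have hu : IsUnit ((γ 1 1 : ℤ) : ZMod N) := by
    have hd := γ.det_coe
    rw [Matrix.det_fin_two] at hd
    have h4 := congrArg (fun x : ℤ => (x : ZMod N)) hd
    push_cast at h4
    rw [Gamma0_mem.mp hγ, mul_zero, sub_zero] at h4
    exact IsUnit.of_mul_eq_one _ ((mul_comm _ _).trans h4)
  obtain ⟨p, hpN, hpp, hpd⟩ := Nat.forall_exists_prime_gt_and_eq_mod hu N
  have : Fact p.Prime := ⟨hpp⟩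
  have hndvd : ¬ p ∣ N := fun h => absurd (Nat.le_of_dvd (NeZero.pos N) h) (not_le.mpr hpN)
  obtain ⟨x, y, hxy⟩ : IsCoprime (p : ℤ) (N : ℤ) := by
    rw [Nat.isCoprime_iff_coprime]
    exact (Nat.Prime.coprime_iff_not_dvd hpp).mpr hndvd
  have hdia := rDia_mem (p := p) (N := N) hxy
  set δ := rDia p N x y hxy with hδ
  have hδ11 : ((δ 1 1 : ℤ) : ZMod N) = (p : ZMod N) := by
    show (((p : ℤ)) : ZMod N) = _
    simp
  set g : ℍ → ℂ := f ∣[(1 : ℤ)] δ + (-ε (p : ZMod N)) • f with hg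
  have h1 : ∀ γ ∈ Gamma1 N, g ∣[(1 : ℤ)] γ = g := by
    intro γ' hγ'
    rw [hg, SlashAction.add_slash, SL_smul_slash, hf.slash _ hγ', ← SlashAction.slash_mul,
      show δ * γ' = (δ * γ' * δ⁻¹) * δ by group, SlashAction.slash_mul,
      hf.slash _ (conj_mem_Gamma1 hdia hγ')]
  have hstar := heckeU_add_eq (p := p) hfQ hpp.ne_zero (hT p hpp hndvd)
  have h3 : heckeU 1 p f + (f ∣[(1 : ℤ)] δ) ∣[(1 : ℤ)] heckeDiagMatrix p =
      qCoeff f p • f + g ∣[(1 : ℤ)] heckeDiagMatrix p := by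
    rw [← hstar, hg]
    ext z
    simp only [Pi.add_apply, Pi.smul_apply, diag_apply hpp.ne_zero, smul_eq_mul]
    ring
  have h2 : ∀ γ ∈ Gamma1 N, (g ∣[(1 : ℤ)] heckeDiagMatrix p) ∣[(1 : ℤ)] γ =
      g ∣[(1 : ℤ)] heckeDiagMatrix p := by
    intro γ' hγ'
    have h4 := hecke_slash (k := 1) hf.slash hxy hγ'
    rw [← hδ, h3, SlashAction.add_slash, SL_smul_slash, hf.slash _ hγ'] at h4
    exact add_left_cancel h4
  have hgc : Continuous g := by
    have hh : MDiff g := by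
      rw [hg]
      exact (hf.holo.slash 1 δ).add (hf.holo.const_smul _)
    exact hh.continuous
  have h0 := eq_zero_of_diag hpp.ne_zero hpN hgc h1 h2
  have h5 : f ∣[(1 : ℤ)] δ = ε (p : ZMod N) • f := by
    have this : f ∣[(1 : ℤ)] δ + (-ε (p : ZMod N)) • f = 0 := h0
    ext z
    have h8 := congrFun this z
    simp only [Pi.add_apply, Pi.smul_apply, smul_eq_mul, Pi.zero_apply] at h8 ⊢
    linear_combination h8
  have h6 : γ = (γ * δ⁻¹) * δ := by group
  have h7 := mul_inv_mem_Gamma1 hγ hdia (by rw [hδ11, hpd])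
  calc f ∣[(1 : ℤ)] γ = (f ∣[(1 : ℤ)] (γ * δ⁻¹)) ∣[(1 : ℤ)] δ := by
        rw [← SlashAction.slash_mul, ← h6]
    _ = _ := by rw [hf.slash _ h7, h5, hpd]

end Fermat.Agent.H23.W1
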