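import Mathlib

set_option autoImplicit false

/-!
# Vanishing of functions of weight one invariant under an elliptic element of infinite order
-/

noncomputable section

open UpperHalfPlane hiding I
open Filter Function Complex Matrix Topology
open scoped MatrixGroups Real

namespace Fermat.Agent.H23.W1

/-- the automorphy factor -/
def jf (γ : SL(2, ℝ)) (z : ℍ) : ℂ := (γ 1 0 : ℝ) * z + (γ 1 1 : ℝ)

theorem jf_ne_zero (γ : SL(2, ℝ)) (z : ℍ) : jf γ z ≠ 0 := by
  intro h
  have him := congrArg Complex.im h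
  have hre := congrArg Complex.re h
  simp only [jf, add_im, mul_im, ofReal_re, ofReal_im, zero_mul, add_zero, coe_im, zero_im,
    add_re, mul_re, sub_zero, coe_re, zero_re] at him hre
  have h1 : (γ 1 0 : ℝ) = 0 := by
    rcases mul_eq_zero.mp him with h | h
    · exact h
    · exact absurd h z.im_pos.ne'
  rw [h1, zero_mul, zero_add] at hre
  have hd := γ.det_coe
  rw [Matrix.det_fin_two, h1, hre] at hd
  simp at hd

theorem coe_sl_smul (γ : SL(2, ℝ)) (z : ℍ) :
    ((γ • z : ℍ) : ℂ) = ((γ 0 0 : ℝ) * z + (γ 0 1 : ℝ)) / jf γ z := by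
  rw [coe_specialLinearGroup_apply]
  rfl

theorem jf_mul (γ δ : SL(2, ℝ)) (z : ℍ) : jf (γ * δ) z = jf γ (δ • z) * jf δ z := by
  have h := jf_ne_zero δ z
  rw [jf, jf, coe_sl_smul]
  have e : ∀ i j, ((γ * δ : SL(2, ℝ)) i j : ℝ) = γ i 0 * δ 0 j + γ i 1 * δ 1 j := fun i j => by
    rw [Matrix.SpecialLinearGroup.coe_mul, Matrix.mul_apply, Fin.sum_univ_two]
  rw [e, e]
  field_simp
  rw [jf]
  push_cast
  ring

theorem jf_one (z : ℍ) : jf 1 z = 1 := by
  simp [jf]

/-- the invariance group -/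
def invG (g : ℍ → ℂ) : Subgroup SL(2, ℝ) where
  carrier := {γ | ∀ z : ℍ, g (γ • z) = jf γ z * g z}
  mul_mem' := by
    intro γ δ hγ hδ z
    rw [mul_smul, hγ, hδ, jf_mul]
    ring
  one_mem' := by
    intro z
    rw [one_smul, jf_one, one_mul]
  inv_mem' := by
    intro γ hγ z
    have h1 := hγ (γ⁻¹ • z)
    rw [smul_inv_smul] at h1
    have h2 : jf γ (γ⁻¹ • z) * jf γ⁻¹ z = 1 := by
      rw [← jf_mul, mul_inv_cancel, jf_one]
    rw [h1, ← mul_assoc, mul_comm (jf γ⁻¹ z), h2, one_mul]

theorem mem_invG {g : ℍ → ℂ} {γ : SL(2, ℝ)} : γ ∈ invG g ↔ ∀ z : ℍ, g (γ • z) = jf γ z * g z :=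
  Iff.rfl

theorem isClosed_invG {g : ℍ → ℂ} (hg : Continuous g) : IsClosed (invG g : Set SL(2, ℝ)) := by
  have h : (invG g : Set SL(2, ℝ)) = ⋂ z : ℍ, {γ | g (γ • z) = jf γ z * g z} := by
    ext γ
    simp [mem_invG]
  rw [h]
  refine isClosed_iInter fun z => isClosed_eq ?_ ?_
  · exact hg.comp (continuous_id.smul continuous_const)
  · refine Continuous.mul ?_ continuous_const
    have h1 : ∀ i j, Continuous fun γ : SL(2, ℝ) => (γ i j : ℝ) := fun i j =>
      (continuous_apply_apply i j).comp continuous_subtype_val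
    unfold jf
    exact ((continuous_ofReal.comp (h1 1 0)).mul continuous_const).add
      (continuous_ofReal.comp (h1 1 1))

/-- a one-parameter group of rotations -/
def rotM (κ l μ : ℝ) (h : κ ^ 2 + l * μ = -1) (t : ℝ) : SL(2, ℝ) :=
  ⟨!![Real.cos t - κ * Real.sin t, l * Real.sin t; μ * Real.sin t,
    Real.cos t + κ * Real.sin t], by
    rw [Matrix.det_fin_two_of]
    linear_combination Real.sin_sq_add_cos_sq t - (Real.sin t) ^ 2 * h⟩

theorem rotM_add {κ l μ : ℝ} (h : κ ^ 2 + l * μ = -1) (s t : ℝ) :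
    rotM κ l μ h (s + t) = rotM κ l μ h s * rotM κ l μ h t := by
  apply Subtype.ext
  show !![_, _; _, _] = !![_, _; _, _] * !![_, _; _, _]
  rw [Matrix.mul_fin_two, Real.cos_add, Real.sin_add]
  congr 1
  ext i j
  fin_cases i <;> fin_cases j
  · simp
    linear_combination (- Real.sin s * Real.sin t) * h
  · simp
    ring
  · simp
    ring
  · simp
    linear_combination (- Real.sin s * Real.sin t) * h

theorem continuous_rotM {κ l μ : ℝ} (h : κ ^ 2 + l * μ = -1) : Continuous (rotM κ l μ h) := by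
  refine Continuous.subtype_mk ?_ _
  refine continuous_matrix fun i j => ?_
  fin_cases i <;> fin_cases j <;> simp <;> fun_prop

theorem rotM_zero {κ l μ : ℝ} (h : κ ^ 2 + l * μ = -1) : rotM κ l μ h 0 = 1 := by
  apply Subtype.ext
  show !![_, _; _, _] = (1 : Matrix (Fin 2) (Fin 2) ℝ)
  ext i j
  fin_cases i <;> fin_cases j <;> simp

/-- the group of angles -/
def angG {κ l μ : ℝ} (h : κ ^ 2 + l * μ = -1) (g : ℍ → ℂ) : AddSubgroup ℝ where
  carrier := {t | rotM κ l μ h t ∈ invG g}
  add_mem' := by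
    intro s t hs ht
    show rotM κ l μ h (s + t) ∈ invG g
    rw [rotM_add]
    exact mul_mem hs ht
  zero_mem' := by
    show rotM κ l μ h 0 ∈ invG g
    rw [rotM_zero]
    exact one_mem _
  neg_mem' := by
    intro t ht
    show rotM κ l μ h (-t) ∈ invG g
    have h1 : rotM κ l μ h t * rotM κ l μ h (-t) = 1 := by
      rw [← rotM_add, add_neg_cancel, rotM_zero]
    rw [eq_inv_of_mul_eq_one_right h1]
    exact inv_mem ht

theorem mem_angG {κ l μ : ℝ} {h : κ ^ 2 + l * μ = -1} {g : ℍ → ℂ} {t : ℝ} :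
    t ∈ angG h g ↔ rotM κ l μ h t ∈ invG g := Iff.rfl

theorem eq_zero_of_angle {κ l μ : ℝ} (h : κ ^ 2 + l * μ = -1) {g : ℍ → ℂ} (hg : Continuous g)
    {θ : ℝ} (hθ : θ ∈ angG h g) (hirr : ∀ r : ℚ, θ ≠ r * π) : g = 0 := by
  have h2π : 2 * π ∈ angG h g := by
    rw [mem_angG]
    have : rotM κ l μ h (2 * π) = 1 := by
      apply Subtype.ext
      show !![_, _; _, _] = (1 : Matrix (Fin 2) (Fin 2) ℝ)
      ext i j
      fin_cases i <;> fin_cases j <;> simp
    rw [this]
    exact one_mem _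
  have hcl : IsClosed (angG h g : Set ℝ) := (isClosed_invG hg).preimage (continuous_rotM h)
  have hd : Dense (angG h g : Set ℝ) := by
    rcases AddSubgroup.dense_or_cyclic (angG h g) with h1 | ⟨a, ha⟩
    · exact h1
    · exfalso
      rw [ha, AddSubgroup.mem_closure_singleton] at hθ h2π
      obtain ⟨m, hm⟩ := hθ
      obtain ⟨n, hn⟩ := h2π
      have hn0 : (n : ℝ) ≠ 0 := by
        intro h0
        rw [zsmul_eq_mul, h0, zero_mul] at hn
        have := Real.pi_pos
        linarith
      apply hirr (2 * m / n)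
      rw [zsmul_eq_mul] at hm hn
      push_cast
      rw [← hm, eq_comm, div_mul_eq_mul_div, div_eq_iff hn0]
      linear_combination (-(m : ℝ)) * hn
  have huniv : (angG h g : Set ℝ) = Set.univ := by
    rw [← hcl.closure_eq, hd.closure_eq]
  have hπ : π ∈ angG h g := by
    have : π ∈ (angG h g : Set ℝ) := by rw [huniv]; trivial
    exact this
  rw [mem_angG] at hπ
  have h3 : rotM κ l μ h π = -1 := by
    apply Subtype.ext
    show !![_, _; _, _] = -(1 : Matrix (Fin 2) (Fin 2) ℝ)
    ext i j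
    fin_cases i <;> fin_cases j <;> simp
  rw [h3] at hπ
  ext z
  have h4 := hπ z
  have h5 : ((-1 : SL(2, ℝ)) • z) = z := by
    ext
    rw [coe_sl_smul]
    simp [jf]
  have h6 : jf (-1) z = -1 := by simp [jf]
  rw [h5, h6] at h4
  have h7 : (2 : ℂ) * g z = 0 := by linear_combination h4
  simpa using h7

/-- translation by `1` -/
def uT : SL(2, ℝ) := ⟨!![1, 1; 0, 1], by simp⟩

/-- lower unipotent -/
def uB (c : ℝ) : SL(2, ℝ) := ⟨!![1, 0; c, 1], by simp⟩

/-- **Vanishing**: a weight one function invariant under translation by `1` and under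
`(1 0; c 1)` with `0 < c < 4` rational but not an integer. -/
theorem eq_zero_of_unip {g : ℍ → ℂ} (hg : Continuous g) {c : ℝ} (hc0 : 0 < c) (hc4 : c < 4)
    (hcQ : ∃ q : ℚ, c = q) (hcI : ∀ n : ℤ, c ≠ n)
    (hT : uT ∈ invG g) (hB : uB c ∈ invG g) : g = 0 := by
  set x : ℝ := 1 - c / 2 with hx
  have hx1 : -1 < x := by rw [hx]; linarith
  have hx2 : x < 1 := by rw [hx]; linarith
  set θ := Real.arccos x with hθ
  have hcos : Real.cos θ = x := Real.cos_arccos hx1.le hx2.le
  have hsin0 : 0 < Real.sin θ := by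
    apply Real.sin_pos_of_pos_of_lt_pi
    · exact Real.arccos_pos.mpr hx2
    · rcases lt_or_eq_of_le (Real.arccos_le_pi x) with h | h
      · exact h
      · exfalso
        rw [Real.arccos_eq_pi] at h
        linarith
  set s := Real.sin θ with hs
  have hs2 : s ^ 2 = 1 - x ^ 2 := by
    have := Real.sin_sq_add_cos_sq θ
    rw [hcos] at this
    linarith
  have hne : s ≠ 0 := hsin0.ne'
  have hrel : ((1 - x) / s) ^ 2 + (1 / s) * (-(2 * (1 - x)) / s) = -1 := by
    field_simp
    rw [hs2]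
    ring
  have hirr : ∀ r : ℚ, θ ≠ r * π := by
    intro r hr
    have h1 : IsIntegral ℤ (2 * Real.cos θ) := by
      rw [hr]
      exact Real.isIntegral_two_mul_cos_rat_mul_pi r
    rw [hcos] at h1
    obtain ⟨q, hq⟩ := hcQ
    have h2 : IsIntegral ℤ (algebraMap ℚ ℝ (2 - q)) := by
      have : (2 * x : ℝ) = algebraMap ℚ ℝ (2 - q) := by
        rw [hx, hq]
        simp
        ring
      rwa [← this]
    have h3 : IsIntegral ℤ (2 - q : ℚ) :=
      (isIntegral_algebraMap_iff (algebraMap ℚ ℝ).injective).mp h2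
    obtain ⟨n, hn⟩ := IsIntegrallyClosed.isIntegral_iff.mp h3
    apply hcI (2 - n)
    rw [hq]
    have h4 : q = 2 - n := by
      have : (n : ℚ) = 2 - q := by simpa using hn
      linarith
    rw [h4]
    push_cast
    ring
  refine eq_zero_of_angle hrel hg (θ := θ) ?_ hirr
  rw [mem_angG]
  have h1 : rotM _ _ _ hrel θ = uT * (uB c)⁻¹ := by
    rw [eq_mul_inv_iff_mul_eq]
    apply Subtype.ext
    show !![_, _; _, _] * !![_, _; _, _] = !![(1 : ℝ), 1; 0, 1]
    rw [Matrix.mul_fin_two, ← hs, hcos]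
    have hc : c = 2 - 2 * x := by rw [hx]; ring
    ext i j
    fin_cases i <;> fin_cases j
    · simp
      rw [hc]
      field_simp
      ring
    · simp
      field_simp
    · simp
      rw [hc]
      field_simp
      ring
    · simp
      field_simp
      ring
  rw [h1]
  exact mul_mem hT (inv_mem hB)

end Fermat.Agent.H23.W1
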